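import Mathlib.Algebra.CharZero.Infinite
import Mathlib.Tactic

/-!
# The icosahedral forms

`fD`, `fC4`, `fC6` are binary forms of degrees 12, 20, 30 satisfying
`fC4 ^ 3 - fC6 ^ 2 = 1728 * fD ^ 5`. The covariant `(-fDs, fDr)` of degree 11 commutes with
every unimodular substitution fixing `fD`.

These are Klein's invariants of the icosahedron (*Lectures on the icosahedron*, I.2). By Rubin and
Silverberg (*Families of elliptic curves with constant mod p representations*, 1995) the curve
with invariants `c₄ = fC4 r s`, `c₆ = fC6 r s` carries a level 5 structure, so curves over a line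
of vectors `(r, s)` have the same 5-torsion. `LT/Switch/Forms` is the analogue at 3.
-/

set_option autoImplicit false

namespace Fermat.Agent.Switch

section Ring

variable {R : Type*} [CommRing R]

/-- The icosahedral form of degree 12. -/
def fD (r s : R) : R := r * s ^ 11 - 11 * r ^ 6 * s ^ 6 - r ^ 11 * s

/-- The icosahedral form of degree 20. -/
def fC4 (r s : R) : R :=
  r ^ 20 - 228 * r ^ 15 * s ^ 5 + 494 * r ^ 10 * s ^ 10 + 228 * r ^ 5 * s ^ 15 + s ^ 20

/-- The icosahedral form of degree 30. -/
def fC6 (r s : R) : R :=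
  -r ^ 30 - 522 * r ^ 25 * s ^ 5 + 10005 * r ^ 20 * s ^ 10 + 10005 * r ^ 10 * s ^ 20
    + 522 * r ^ 5 * s ^ 25 - s ^ 30

/-- `∂fD/∂r`. -/
def fDr (r s : R) : R := s ^ 11 - 66 * r ^ 5 * s ^ 6 - 11 * r ^ 10 * s

/-- `∂fD/∂s`. -/
def fDs (r s : R) : R := 11 * r * s ^ 10 - 66 * r ^ 6 * s ^ 5 - r ^ 11

def fDrr (r s : R) : R := -330 * r ^ 4 * s ^ 6 - 110 * r ^ 9 * s

def fDrs (r s : R) : R := 11 * s ^ 10 - 396 * r ^ 5 * s ^ 5 - 11 * r ^ 10

def fDss (r s : R) : R := 110 * r * s ^ 9 - 330 * r ^ 6 * s ^ 4

/-- `∂fC4/∂r`. -/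
def fC4r (r s : R) : R :=
  20 * r ^ 19 - 3420 * r ^ 14 * s ^ 5 + 4940 * r ^ 9 * s ^ 10 + 1140 * r ^ 4 * s ^ 15

/-- `∂fC4/∂s`. -/
def fC4s (r s : R) : R :=
  -1140 * r ^ 15 * s ^ 4 + 4940 * r ^ 10 * s ^ 9 + 3420 * r ^ 5 * s ^ 14 + 20 * s ^ 19

/-- The icosahedral identity `fC4³ - fC6² = 1728 fD⁵`. -/
theorem fC4_cube_sub_fC6_sq (r s : R) :
    fC4 r s ^ 3 - fC6 r s ^ 2 = 1728 * fD r s ^ 5 := by
  simp only [fC4, fC6, fD]; ring

theorem hessian_fD (r s : R) :
    fDrr r s * fDss r s - fDrs r s ^ 2 = -121 * fC4 r s := by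
  simp only [fDrr, fDss, fDrs, fC4]; ring

theorem jacobian_fD_fC4 (r s : R) :
    fDr r s * fC4s r s - fDs r s * fC4r r s = -20 * fC6 r s := by
  simp only [fDr, fDs, fC4r, fC4s, fC6]; ring

/-- Euler's identity for the form `fD` of degree `12`. -/
theorem euler_fD (r s : R) : r * fDr r s + s * fDs r s = 12 * fD r s := by
  simp only [fDr, fDs, fD]; ring

theorem euler_fDr (r s : R) : r * fDrr r s + s * fDrs r s = 11 * fDr r s := by
  simp only [fDrr, fDrs, fDr]; ring

theorem euler_fDs (r s : R) : r * fDrs r s + s * fDss r s = 11 * fDs r s := by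
  simp only [fDrs, fDss, fDs]; ring

/-- A Bezout identity for `fC4` and `fD`. -/
theorem bezout_fst (r s : R) :
    (3125 : R) * r ^ 31
      = (3125 * r ^ 11 + 33022 * r ^ 6 * s ^ 5 - 3003 * r * s ^ 10) * fC4 r s
        + (-679478 * r ^ 15 * s ^ 4 + 1485989 * r ^ 10 * s ^ 9 + 684695 * r ^ 5 * s ^ 14
            + 3003 * s ^ 19) * fD r s := by
  simp only [fC4, fD]; ring

/-- The form of degree twelve is invariant under `(r, s) ↦ (s, -r)`. -/
theorem fD_swap (r s : R) : fD s (-r) = fD r s := by simp only [fD]; ring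

theorem fC4_swap (r s : R) : fC4 s (-r) = fC4 r s := by simp only [fC4]; ring

/-- The mirror image of `bezout_fst`. -/
theorem bezout_snd (r s : R) :
    (3125 : R) * s ^ 31
      = (3125 * s ^ 11 + 33022 * s ^ 6 * (-r) ^ 5 - 3003 * s * (-r) ^ 10) * fC4 r s
        + (-679478 * s ^ 15 * (-r) ^ 4 + 1485989 * s ^ 10 * (-r) ^ 9
            + 684695 * s ^ 5 * (-r) ^ 14 + 3003 * (-r) ^ 19) * fD r s := by
  have h := bezout_fst s (-r)
  rwa [fD_swap, fC4_swap] at h

/-- `fD` is homogeneous of degree `12`. -/
theorem fD_smul (c r s : R) : fD (c * r) (c * s) = c ^ 12 * fD r s := by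
  simp only [fD]; ring

/-- `fC4` is homogeneous of degree `20`. -/
theorem fC4_smul (c r s : R) : fC4 (c * r) (c * s) = c ^ 20 * fC4 r s := by
  simp only [fC4]; ring

/-- `fC6` is homogeneous of degree `30`. -/
theorem fC6_smul (c r s : R) : fC6 (c * r) (c * s) = c ^ 30 * fC6 r s := by
  simp only [fC6]; ring

theorem fDr_smul (c r s : R) : fDr (c * r) (c * s) = c ^ 11 * fDr r s := by
  simp only [fDr]; ring

theorem fDs_smul (c r s : R) : fDs (c * r) (c * s) = c ^ 11 * fDs r s := by
  simp only [fDs]; ring

variable {S : Type*} [CommRing S]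

/-- `fD` commutes with ring homomorphisms. -/
theorem map_fD (f : R →+* S) (r s : R) : f (fD r s) = fD (f r) (f s) := by
  simp [fD, map_ofNat]

/-- `fC4` commutes with ring homomorphisms. -/
theorem map_fC4 (f : R →+* S) (r s : R) : f (fC4 r s) = fC4 (f r) (f s) := by
  simp [fC4, map_ofNat]

/-- `fC6` commutes with ring homomorphisms. -/
theorem map_fC6 (f : R →+* S) (r s : R) : f (fC6 r s) = fC6 (f r) (f s) := by
  simp [fC6, map_ofNat]

/-- `∂fD/∂r` commutes with ring homomorphisms. -/
theorem map_fDr (f : R →+* S) (r s : R) : f (fDr r s) = fDr (f r) (f s) := by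
  simp [fDr, map_ofNat]

/-- `∂fD/∂s` commutes with ring homomorphisms. -/
theorem map_fDs (f : R →+* S) (r s : R) : f (fDs r s) = fDs (f r) (f s) := by
  simp [fDs, map_ofNat]

end Ring

section Field

variable {K : Type*} [Field K] [CharZero K]

open Polynomial

/-- The forms of degrees twenty and twelve have no common zero but the origin. -/
theorem eq_zero_of_fC4_fD {r s : K} (h4 : fC4 r s = 0) (hD : fD r s = 0) : r = 0 ∧ s = 0 := by
  constructor
  · have h := bezout_fst r s
    rw [h4, hD] at h
    simpa using h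
  · have h := bezout_snd r s
    rw [h4, hD] at h
    simpa using h

/-- A form with vanishing gradient at a nonzero point would be singular there: this does not
happen for `fD`. -/
theorem eq_zero_of_fDr_fDs {r s : K} (hr : fDr r s = 0) (hs : fDs r s = 0) : r = 0 ∧ s = 0 := by
  have hD : fD r s = 0 := by
    have h := euler_fD r s
    rw [hr, hs] at h
    simpa using h.symm
  by_contra hne
  have h1 := euler_fDr r s
  have h2 := euler_fDs r s
  rw [hr, mul_zero] at h1
  rw [hs, mul_zero] at h2
  have h3 : r * (fDrr r s * fDss r s - fDrs r s ^ 2) = 0 := by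
    linear_combination fDss r s * h1 - fDrs r s * h2
  have h4 : s * (fDrr r s * fDss r s - fDrs r s ^ 2) = 0 := by
    linear_combination -fDrs r s * h1 + fDrr r s * h2
  rw [hessian_fD] at h3 h4
  by_cases hc : fC4 r s = 0
  · exact hne (eq_zero_of_fC4_fD hc hD)
  · exact hne ⟨by simpa [hc] using h3, by simpa [hc] using h4⟩

/-- A substitution preserving the icosahedral forms and their covariant. -/
structure IsSym (a b c d : K) : Prop where
  c4_eq : ∀ r s : K, fC4 (a * r + b * s) (c * r + d * s) = fC4 r s
  c6_eq : ∀ r s : K, fC6 (a * r + b * s) (c * r + d * s) = fC6 r s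
  k1_eq : ∀ r s : K, -fDs (a * r + b * s) (c * r + d * s) = a * (-fDs r s) + b * fDr r s
  k2_eq : ∀ r s : K, fDr (a * r + b * s) (c * r + d * s) = c * (-fDs r s) + d * fDr r s

omit [CharZero K] in
/-- The first derivative of `fD` along a line, at its origin. -/
theorem derivative_fD_line (r s u v : K) :
    (derivative (fD (C r + C u * X) (C s + C v * X))).eval 0
      = fDr r s * u + fDs r s * v := by
  simp [fD, fDr, fDs, derivative_pow]
  ring

omit [CharZero K] in
/-- The second derivative of `fD` along a line, at its origin. -/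
theorem derivative_two_fD_line (r s u v : K) :
    (derivative (derivative (fD (C r + C u * X) (C s + C v * X)))).eval 0
      = fDrr r s * u ^ 2 + 2 * fDrs r s * u * v + fDss r s * v ^ 2 := by
  simp [fD, fDrr, fDrs, fDss, derivative_pow]
  ring

omit [CharZero K] in
/-- The first derivative of `fC4` along a line, at its origin. -/
theorem derivative_fC4_line (r s u v : K) :
    (derivative (fC4 (C r + C u * X) (C s + C v * X))).eval 0
      = fC4r r s * u + fC4s r s * v := by
  simp [fC4, fC4r, fC4s, derivative_pow]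
  ring

omit [CharZero K] in
/-- Evaluation commutes with `fD`. -/
theorem eval_fD (p q : K[X]) (x : K) : (fD p q).eval x = fD (p.eval x) (q.eval x) :=
  map_fD (evalRingHom x) p q

omit [CharZero K] in
/-- Evaluation of polynomials commutes with `fC4`. -/
theorem eval_fC4 (p q : K[X]) (x : K) : (fC4 p q).eval x = fC4 (p.eval x) (q.eval x) :=
  map_fC4 (evalRingHom x) p q

omit [CharZero K] in
/-- Evaluation of polynomials commutes with `fC6`. -/
theorem eval_fC6 (p q : K[X]) (x : K) : (fC6 p q).eval x = fC6 (p.eval x) (q.eval x) :=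
  map_fC6 (evalRingHom x) p q

/-- A unimodular substitution fixing `fD` fixes everything derived from it. -/
theorem IsSym.of_fD {a b c d : K} (hdet : a * d - b * c = 1)
    (hD : ∀ r s : K, fD (a * r + b * s) (c * r + d * s) = fD r s) : IsSym a b c d := by
  have hDline : ∀ r s u v : K, fD (C (a * r + b * s) + C (a * u + b * v) * X)
      (C (c * r + d * s) + C (c * u + d * v) * X) = fD (C r + C u * X) (C s + C v * X) := by
    intro r s u v
    apply Polynomial.funext
    intro x
    have h := hD (r + u * x) (s + v * x)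
    simp only [eval_fD, eval_add, eval_mul, eval_C, eval_X]
    convert h using 2 <;> ring
  -- Differentiate along lines: the substitution carries the gradient and the Hessian of `fD`
  -- over, so fixes `fC4`, and then `fC6` as the Jacobian of `fD` and `fC4`.
  have h1 : ∀ r s u v : K,
      fDr (a * r + b * s) (c * r + d * s) * (a * u + b * v)
        + fDs (a * r + b * s) (c * r + d * s) * (c * u + d * v)
      = fDr r s * u + fDs r s * v := by
    intro r s u v
    rw [← derivative_fD_line, hDline, derivative_fD_line]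
  have h2 : ∀ r s u v : K,
      fDrr (a * r + b * s) (c * r + d * s) * (a * u + b * v) ^ 2
        + 2 * fDrs (a * r + b * s) (c * r + d * s) * (a * u + b * v) * (c * u + d * v)
        + fDss (a * r + b * s) (c * r + d * s) * (c * u + d * v) ^ 2
      = fDrr r s * u ^ 2 + 2 * fDrs r s * u * v + fDss r s * v ^ 2 := by
    intro r s u v
    rw [← derivative_two_fD_line, hDline, derivative_two_fD_line]
  have hc4 : ∀ r s : K, fC4 (a * r + b * s) (c * r + d * s) = fC4 r s := by
    intro r s
    set A := fDrr (a * r + b * s) (c * r + d * s) with hA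
    set B := fDrs (a * r + b * s) (c * r + d * s) with hB
    set C' := fDss (a * r + b * s) (c * r + d * s) with hC
    have e1 := h2 r s 1 0
    have e2 := h2 r s 0 1
    have e3 := h2 r s 1 1
    have hrr : fDrr r s = A * a ^ 2 + 2 * B * a * c + C' * c ^ 2 := by linear_combination -e1
    have hss : fDss r s = A * b ^ 2 + 2 * B * b * d + C' * d ^ 2 := by linear_combination -e2
    have hrs : fDrs r s = A * a * b + B * (a * d + b * c) + C' * c * d :=
      mul_left_cancel₀ (two_ne_zero (α := K)) (by linear_combination -e3 + e1 + e2)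
    have hr := hessian_fD r s
    rw [hrr, hss, hrs] at hr
    have hM := hessian_fD (a * r + b * s) (c * r + d * s)
    rw [← hA, ← hB, ← hC] at hM
    apply mul_left_cancel₀ (show (-121 : K) ≠ 0 by norm_num)
    linear_combination hr - hM - (A * C' - B ^ 2) * (a * d - b * c + 1) * hdet
  have hc4line : ∀ r s u v : K, fC4 (C (a * r + b * s) + C (a * u + b * v) * X)
      (C (c * r + d * s) + C (c * u + d * v) * X) = fC4 (C r + C u * X) (C s + C v * X) := by
    intro r s u v
    apply Polynomial.funext
    intro x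
    have h := hc4 (r + u * x) (s + v * x)
    simp only [eval_fC4, eval_add, eval_mul, eval_C, eval_X]
    convert h using 2 <;> ring
  have h4 : ∀ r s u v : K,
      fC4r (a * r + b * s) (c * r + d * s) * (a * u + b * v)
        + fC4s (a * r + b * s) (c * r + d * s) * (c * u + d * v)
      = fC4r r s * u + fC4s r s * v := by
    intro r s u v
    rw [← derivative_fC4_line, hc4line, derivative_fC4_line]
  have hgrad : ∀ r s : K,
      fDr r s = fDr (a * r + b * s) (c * r + d * s) * a
          + fDs (a * r + b * s) (c * r + d * s) * c ∧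
        fDs r s = fDr (a * r + b * s) (c * r + d * s) * b
          + fDs (a * r + b * s) (c * r + d * s) * d :=
    fun r s => ⟨by linear_combination -h1 r s 1 0, by linear_combination -h1 r s 0 1⟩
  refine ⟨hc4, fun r s => ?_, fun r s => ?_, fun r s => ?_⟩ <;> obtain ⟨er, es⟩ := hgrad r s
  · have gr : fC4r r s = fC4r (a * r + b * s) (c * r + d * s) * a
        + fC4s (a * r + b * s) (c * r + d * s) * c := by linear_combination -h4 r s 1 0
    have gs : fC4s r s = fC4r (a * r + b * s) (c * r + d * s) * b
        + fC4s (a * r + b * s) (c * r + d * s) * d := by linear_combination -h4 r s 0 1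
    have hr := jacobian_fD_fC4 r s
    have hM := jacobian_fD_fC4 (a * r + b * s) (c * r + d * s)
    rw [er, es, gr, gs] at hr
    apply mul_left_cancel₀ (show (-20 : K) ≠ 0 by norm_num)
    linear_combination hr - hM - (fDr (a * r + b * s) (c * r + d * s)
      * fC4s (a * r + b * s) (c * r + d * s) - fDs (a * r + b * s) (c * r + d * s)
      * fC4r (a * r + b * s) (c * r + d * s)) * hdet
  · linear_combination a * es - b * er + fDs (a * r + b * s) (c * r + d * s) * hdet
  · linear_combination c * es - d * er - fDr (a * r + b * s) (c * r + d * s) * hdet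

omit [CharZero K] in
/-- Scaling by a tenth root of unity. -/
theorem IsSym.smul {a b c d : K} (h : IsSym a b c d) {l : K} (hl : l ^ 10 = 1) :
    IsSym (l * a) (l * b) (l * c) (l * d) := by
  have e1 : ∀ r s : K, (l * a) * r + (l * b) * s = l * (a * r + b * s) := fun r s => by ring
  have e2 : ∀ r s : K, (l * c) * r + (l * d) * s = l * (c * r + d * s) := fun r s => by ring
  have h11 : l ^ 11 = l := by rw [pow_succ, hl, one_mul]
  refine ⟨fun r s => ?_, fun r s => ?_, fun r s => ?_, fun r s => ?_⟩
  · rw [e1, e2, fC4_smul, h.c4_eq, show l ^ 20 = (l ^ 10) ^ 2 by ring, hl, one_pow, one_mul]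
  · rw [e1, e2, fC6_smul, h.c6_eq, show l ^ 30 = (l ^ 10) ^ 3 by ring, hl, one_pow, one_mul]
  · rw [e1, e2, fDs_smul, h11, ← mul_neg, h.k1_eq]; ring
  · rw [e1, e2, fDr_smul, h11, h.k2_eq]; ring

end Field

end Fermat.Agent.Switch
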