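import Mathlib
import Fermat.Agent.Switch.Symmetry

/-!
# The symmetries act transitively on each fibre of `(fC4, fC6)`

For slopes `x₀` with sixty distinct images the orbit polynomial of degree `60` is the product over
the orbit (`orbitPoly_eq_prod`). This is a polynomial identity in `x₀`, so it holds at every `x₀`
and each root of the orbit polynomial is in the orbit (`exists_rot_of_eq`).
-/

set_option autoImplicit false

namespace Fermat.Agent.Switch

open Polynomial

variable {K : Type*} [Field K]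

theorem eq_one_add_pow_primitiveRoot {z : K} (hz : IsPrimitiveRoot z 5) :
    1 + z + z ^ 2 + z ^ 3 + z ^ 4 = 0 := by
  have h := hz.geom_sum_eq_zero (by norm_num)
  simpa [Finset.sum_range_succ, add_assoc] using h

/-- The parameters attached to a primitive fifth root of unity. -/
def paramOfRoot {z : K} (hz : IsPrimitiveRoot z 5) : Param K where
  k := -1 - z ^ 2 - z ^ 3
  p := z - z ^ 4
  hk := by
    linear_combination (z ^ 2 + z - 1) * eq_one_add_pow_primitiveRoot hz
  hp := by
    linear_combination (z ^ 4 - z ^ 3 - 2 * z + 2) * eq_one_add_pow_primitiveRoot hz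

theorem linear_eq_zero_iff {c d : K} (h : C c * X + C d = 0) : c = 0 ∧ d = 0 :=
  ⟨by simpa using congrArg (fun q => coeff q 1) h, by simpa using congrArg (fun q => coeff q 0) h⟩

theorem natDegree_fC4_X_le : (fC4 (X : K[X]) 1).natDegree ≤ 20 := by
  simp only [fC4, one_pow, mul_one]; compute_degree

theorem natDegree_fD_X_le : (fD (X : K[X]) 1).natDegree ≤ 11 := by
  simp only [fD, one_pow, mul_one]; compute_degree

theorem coeff_fC4_X : (fC4 (X : K[X]) 1).coeff 20 = 1 := by
  simp only [fC4, one_pow, mul_one]; compute_degree!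

/-- The forms at a vector through their values at its slope. -/
theorem forms_dehomogenize (a : K) {b : K} (hb : b ≠ 0) :
    fC4 a b = b ^ 20 * fC4 (a / b) 1 ∧ fD a b = b ^ 12 * fD (a / b) 1 := by
  constructor
  · rw [← fC4_smul]; field_simp
  · rw [← fD_smul]; field_simp

/-- In the pencil of `fC4 X 1 ^ 3` and `fD X 1 ^ 5` the coefficient of degree `60` is that of
`fC4 X 1 ^ 3`. -/
theorem coeff_pencil (a b : K) :
    (fC4 (X : K[X]) 1 ^ 3 * C a - C b * fD X 1 ^ 5).coeff 60 = a := by
  have h1 : (fD (X : K[X]) 1 ^ 5).natDegree < 60 :=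
    natDegree_pow_le.trans_lt (by have := natDegree_fD_X_le (K := K); omega)
  have h2 := coeff_pow_of_natDegree_le (n := 20) (m := 3) (natDegree_fC4_X_le (K := K))
  rw [coeff_sub, coeff_mul_C, coeff_C_mul, coeff_eq_zero_of_natDegree_lt h1,
    show 60 = 3 * 20 by rfl, h2, coeff_fC4_X]
  simp

/-- The degree `60` polynomial whose roots are the orbit of the slope `x₀`. -/
noncomputable def orbitPoly (x₀ : K) : K[X] :=
  fC4 X 1 ^ 3 * C (fD x₀ 1 ^ 5) - C (fC4 x₀ 1 ^ 3) * fD X 1 ^ 5

theorem natDegree_orbitPoly_le (x₀ : K) : (orbitPoly x₀).natDegree ≤ 60 := by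
  refine natDegree_sub_le_iff_left ?_ |>.mpr ?_
  · exact (natDegree_C_mul_le _ _).trans
      (natDegree_pow_le.trans (by have := natDegree_fD_X_le (K := K); omega))
  · exact (natDegree_mul_C_le _ _).trans
      (natDegree_pow_le.trans (by have := natDegree_fC4_X_le (K := K); omega))

theorem coeff_orbitPoly (x₀ : K) : (orbitPoly x₀).coeff 60 = fD x₀ 1 ^ 5 :=
  coeff_pencil _ _

theorem eval_orbitPoly (x₀ x : K) :
    (orbitPoly x₀).eval x = fC4 x 1 ^ 3 * fD x₀ 1 ^ 5 - fC4 x₀ 1 ^ 3 * fD x 1 ^ 5 := by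
  simp [orbitPoly, eval_fC4, eval_fD]

variable (π : Param K) (z : K)

/-- Numerator of the action of a rotation on slopes. -/
def rotNum (g : Rot) (x : K) : K := (rot π z g).1 * x + (rot π z g).2.1

/-- Denominator of the action of a rotation on slopes. -/
def rotDen (g : Rot) (x : K) : K := (rot π z g).2.2.1 * x + (rot π z g).2.2.2

variable {π z}

theorem orbitPoly_eq_prod [CharZero K] (hz : IsPrimitiveRoot z 5) (x₀ : K)
    (hden : ∀ g : Rot, rotDen π z g x₀ ≠ 0)
    (hinj : ∀ g h : Rot, g ≠ h →
      rotNum π z g x₀ * rotDen π z h x₀ ≠ rotNum π z h x₀ * rotDen π z g x₀) :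
    orbitPoly x₀ = C (fD x₀ 1 ^ 5) * ∏ g : Rot, (X - C (rotNum π z g x₀ / rotDen π z g x₀)) := by
  classical
  set P := C (fD x₀ 1 ^ 5) * ∏ g : Rot, (X - C (rotNum π z g x₀ / rotDen π z g x₀)) with hP
  have hcard : Fintype.card Rot = 60 := rfl
  have hprod : (∏ g : Rot, (X - C (rotNum π z g x₀ / rotDen π z g x₀))).natDegree = 60 := by
    rw [natDegree_prod_of_monic _ _ fun g _ => monic_X_sub_C _]
    simp only [natDegree_X_sub_C, Finset.sum_const, Finset.card_univ, hcard, smul_eq_mul]
  have hmonic : (∏ g : Rot, (X - C (rotNum π z g x₀ / rotDen π z g x₀))).Monic :=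
    monic_prod_of_monic _ _ fun g _ => monic_X_sub_C _
  have hd : (orbitPoly x₀ - P).natDegree < 60 := by
    have hle : (orbitPoly x₀ - P).natDegree ≤ 60 :=
      (natDegree_sub_le _ _).trans (max_le (natDegree_orbitPoly_le x₀)
        ((natDegree_C_mul_le _ _).trans hprod.le))
    rcases lt_or_eq_of_le hle with h | h
    · exact h
    · exfalso
      have hc : (orbitPoly x₀ - P).coeff 60 = 0 := by
        rw [coeff_sub, coeff_orbitPoly, hP, coeff_C_mul]
        have := hmonic.coeff_natDegree
        rw [hprod] at this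
        rw [this, mul_one, sub_self]
      have h0 : orbitPoly x₀ - P = 0 := by
        rw [← leadingCoeff_eq_zero, leadingCoeff, h, hc]
      simp [h0] at h
  refine sub_eq_zero.mp (eq_zero_of_natDegree_lt_card_of_eval_eq_zero (orbitPoly x₀ - P)
    (f := fun g : Rot => rotNum π z g x₀ / rotDen π z g x₀) ?_ ?_ (by rw [hcard]; exact hd))
  · intro g h hgh
    by_contra hne
    simp only [div_eq_div_iff (hden g) (hden h)] at hgh
    exact hinj g h hne hgh
  · intro g
    have hU := (isUni_rot π hz.pow_eq_one g).isSym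
    have h4 := hU.c4_eq x₀ 1
    have hD := (isUni_rot π hz.pow_eq_one g).fD_eq x₀ 1
    simp only [mul_one] at h4 hD
    change fC4 (rotNum π z g x₀) (rotDen π z g x₀) = _ at h4
    change fD (rotNum π z g x₀) (rotDen π z g x₀) = _ at hD
    have hn := hden g
    set a := rotNum π z g x₀
    set b := rotDen π z g x₀
    obtain ⟨e4, eD⟩ := forms_dehomogenize a hn
    simp only [eval_sub, eval_orbitPoly, hP, eval_mul, eval_prod, eval_X, eval_C]
    rw [Finset.prod_eq_zero (Finset.mem_univ g) (sub_self (a / b)), mul_zero, sub_zero,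
      ← h4, ← hD, e4, eD]
    ring

-- the linter exceeds the recursion depth on this proof
set_option linter.constructorNameAsVariable false in
/-- Every root of the orbit polynomial is in the orbit. The product formula holds at the slopes
outside the zeros of the polynomial `bad` (poles and coincidences in the orbit), hence
identically. -/
theorem exists_rot_of_eq [CharZero K] (hz : IsPrimitiveRoot z 5) {x₀ x : K} (hD : fD x₀ 1 ≠ 0)
    (h : fC4 x 1 ^ 3 * fD x₀ 1 ^ 5 = fC4 x₀ 1 ^ 3 * fD x 1 ^ 5) :
    ∃ g : Rot, rotNum π z g x₀ = x * rotDen π z g x₀ := by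
  classical
  -- `N g / E g` is the symmetry `g`; `G` is the product formula as a polynomial in `t`.
  set N : Rot → K[X] := fun g => C (rot π z g).1 * X + C (rot π z g).2.1 with hN
  set E : Rot → K[X] := fun g => C (rot π z g).2.2.1 * X + C (rot π z g).2.2.2 with hE
  have eN : ∀ g t, (N g).eval t = rotNum π z g t := fun g t => by simp [hN, rotNum]
  have eE : ∀ g t, (E g).eval t = rotDen π z g t := fun g t => by simp [hE, rotDen]
  set G : K[X] := (C (fC4 x 1 ^ 3) * fD X 1 ^ 5 - fC4 X 1 ^ 3 * C (fD x 1 ^ 5)) * ∏ g, E g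
      - fD X 1 ^ 5 * ∏ g, (C x * E g - N g) with hG
  set bad : K[X] := (∏ g, E g) *
      ∏ gh ∈ (Finset.univ : Finset (Rot × Rot)).filter (fun gh => gh.1 ≠ gh.2),
        (N gh.1 * E gh.2 - N gh.2 * E gh.1) with hbadDef
  -- `bad` is nonzero, as distinct symmetries differ projectively.
  have hbad : bad ≠ 0 := by
    refine mul_ne_zero (Finset.prod_ne_zero_iff.mpr fun g _ h0 => ?_)
      (Finset.prod_ne_zero_iff.mpr fun gh hgh h0 => ?_)
    · obtain ⟨hc, hd⟩ := linear_eq_zero_iff h0
      have := (isUni_rot π hz.pow_eq_one g).det_eq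
      rw [hc, hd] at this
      simp at this
    · obtain ⟨g, g'⟩ := gh
      rw [Finset.mem_filter] at hgh
      refine hgh.2 ?_
      set M := rot π z g with hM
      set M' := rot π z g' with hM'
      have hev : ∀ t : K,
          (M.1 * t + M.2.1) * (M'.2.2.1 * t + M'.2.2.2)
            = (M'.1 * t + M'.2.1) * (M.2.2.1 * t + M.2.2.2) := fun t => by
        have := congrArg (Polynomial.eval t) h0
        simp only [eval_sub, eval_mul, eval_zero, eN, eE, rotNum, rotDen] at this
        linear_combination this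
      have k0 := hev 0
      have k1 := hev 1
      have k2 := hev (-1)
      have q0 : M.2.1 * M'.2.2.2 = M'.2.1 * M.2.2.2 := by linear_combination k0
      have q2 : M.1 * M'.2.2.1 = M'.1 * M.2.2.1 := by linear_combination k1 / 2 + k2 / 2 - k0
      have q1 : M.1 * M'.2.2.2 + M.2.1 * M'.2.2.1 = M'.1 * M.2.2.2 + M'.2.1 * M.2.2.1 := by
        linear_combination k1 / 2 - k2 / 2
      have dM := (isUni_rot π hz.pow_eq_one g).det_eq
      have dM' := (isUni_rot π hz.pow_eq_one g').det_eq
      rw [← hM] at dM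
      rw [← hM'] at dM'
      refine rot_ne_prop π hz (g := g) (h := g')
        (l := M'.1 * M.2.2.2 - M'.2.2.1 * M.2.1) ?_ ?_ ?_ ?_ <;>
        simp only [← hM, ← hM']
      · linear_combination (-M'.1) * dM + M.2.1 * q2
      · linear_combination (-M'.2.1) * dM - M.1 * q0 + M.2.1 * q1
      · linear_combination (-M'.2.2.1) * dM + M.2.2.2 * q2
      · linear_combination (-M'.2.2.2) * dM + M.2.2.2 * q1 - M.2.2.1 * q0
  have hzero : G = 0 := by
    refine eq_zero_of_infinite_isRoot _ (Set.Infinite.mono ?_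
      (Set.Finite.infinite_compl (finite_setOfPred_isRoot hbad)))
    intro t ht
    -- (`eval_mul` on abstract factors: rewriting the concrete one is slow to check in the kernel)
    have key : ∀ A B : K[X], A.eval t = 0 ∨ B.eval t = 0 → (A * B).eval t = 0 := fun A B h => by
      rw [eval_mul]; exact mul_eq_zero.mpr h
    have hne : ∀ (A B : K[X]), bad = A * B → A.eval t ≠ 0 ∧ B.eval t ≠ 0 := fun A B hAB =>
      ⟨fun h => ht ((congrArg (eval t) hAB).trans (key A B (.inl h))),
        fun h => ht ((congrArg (eval t) hAB).trans (key A B (.inr h)))⟩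
    obtain ⟨hne₁, hne₂⟩ := hne _ _ hbadDef
    have hden : ∀ g, rotDen π z g t ≠ 0 := fun g h0 => hne₁ (by
      rw [eval_prod]; exact Finset.prod_eq_zero (Finset.mem_univ g) ((eE g t).trans h0))
    have hinj : ∀ g h, g ≠ h →
        rotNum π z g t * rotDen π z h t ≠ rotNum π z h t * rotDen π z g t := fun g h hgh he =>
      hne₂ (by
      rw [eval_prod]
      refine Finset.prod_eq_zero (i := (g, h)) (by simp [hgh]) ?_
      rw [eval_sub, eval_mul, eval_mul, eN, eN, eE, eE, he, sub_self])
    have e := congrArg (Polynomial.eval x) (orbitPoly_eq_prod hz t hden hinj)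
    simp only [eval_orbitPoly, eval_mul, eval_C, eval_prod, eval_sub, eval_X] at e
    simp only [Set.mem_ofPred_eq, IsRoot.def, hG, eval_sub, eval_mul, eval_prod, eval_pow, eval_C,
      eval_fC4, eval_fD, eval_X, eval_one, eN, eE]
    rw [e, mul_assoc, ← Finset.prod_mul_distrib]
    rw [sub_eq_zero]
    refine congrArg _ (Finset.prod_congr rfl fun g _ => ?_)
    have := hden g
    field_simp
  -- Evaluate at `x₀`: some factor of the second product vanishes.
  have e := congrArg (Polynomial.eval x₀) hzero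
  simp only [hG, eval_sub, eval_mul, eval_prod, eval_pow, eval_C, eval_fC4, eval_fD, eval_X,
    eval_one, eN, eE, eval_zero, h, sub_self, zero_mul, zero_sub, neg_eq_zero, mul_eq_zero,
    pow_eq_zero_iff (by norm_num : (5 : ℕ) ≠ 0), hD, false_or, Finset.prod_eq_zero_iff] at e
  obtain ⟨g, -, hg⟩ := e
  exact ⟨g, by linear_combination -hg⟩

/-- Two vectors with the same invariants differ by a symmetry. -/
theorem exists_isSym [CharZero K] (hz : IsPrimitiveRoot z 5) {r s r' s' : K}
    (h4 : fC4 r' s' = fC4 r s) (h6 : fC6 r' s' = fC6 r s) (hc4 : fC4 r s ≠ 0) (hc6 : fC6 r s ≠ 0)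
    (hD : fD r s ≠ 0) :
    ∃ a b c d : K, IsSym a b c d ∧ r' = a * r + b * s ∧ s' = c * r + d * s := by
  have hD5 : fD r' s' ^ 5 = fD r s ^ 5 := by
    apply mul_left_cancel₀ (show (1728 : K) ≠ 0 by norm_num)
    rw [← fC4_cube_sub_fC6_sq, ← fC4_cube_sub_fC6_sq, h4, h6]
  have hD' : fD r' s' ≠ 0 := fun h0 => hD (by simpa [h0] using hD5.symm)
  have hs : s ≠ 0 := fun h0 => hD (by simp [fD, h0])
  have hs' : s' ≠ 0 := fun h0 => hD' (by simp [fD, h0])
  obtain ⟨e4, eD⟩ := forms_dehomogenize r hs
  obtain ⟨e4', eD'⟩ := forms_dehomogenize r' hs'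
  have hx : fD (r / s) 1 ≠ 0 := fun h0 => hD (by rw [eD, h0, mul_zero])
  let π := paramOfRoot hz
  -- Equal invariants give equal `j`, so the ratios differ by a rotation.
  obtain ⟨g, hg⟩ := exists_rot_of_eq (π := π) hz (x₀ := r / s) (x := r' / s') hx (by
    apply mul_left_cancel₀ (mul_ne_zero (pow_ne_zero 60 hs) (pow_ne_zero 60 hs'))
    have : fC4 r' s' ^ 3 * fD r s ^ 5 = fC4 r s ^ 3 * fD r' s' ^ 5 := by rw [h4, hD5]
    rw [e4, eD, e4', eD'] at this
    linear_combination this)
  have hU := (isUni_rot π hz.pow_eq_one g).isSym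
  obtain ⟨⟨a, b, c, d⟩, hM⟩ : ∃ M, rot π z g = M := ⟨_, rfl⟩
  simp only [rotNum, rotDen, hM] at hg
  rw [hM] at hU
  have hprop : a * r + b * s = r' / s' * (c * r + d * s) := by
    field_simp at hg ⊢
    linear_combination hg
  set l := (c * r + d * s) / s' with hl
  have e1 : a * r + b * s = l * r' := by rw [hprop, hl]; field_simp
  have e2 : c * r + d * s = l * s' := by rw [hl]; field_simp
  have k4 := hU.c4_eq r s
  have k6 := hU.c6_eq r s
  simp only [e1, e2, fC4_smul, fC6_smul, h4, h6] at k4 k6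
  -- The scalar left is a tenth root of unity.
  have l20 : l ^ 20 = 1 := (mul_eq_right₀ hc4).mp k4
  have l30 : l ^ 30 = 1 := (mul_eq_right₀ hc6).mp k6
  have l10 : l ^ 10 = 1 := by
    rw [show l ^ 30 = l ^ 20 * l ^ 10 by ring, l20, one_mul] at l30; exact l30
  have hl0 : l ≠ 0 := fun h0 => by simp [h0] at l10
  refine ⟨_, _, _, _, hU.smul (l := l⁻¹) (by rw [inv_pow, l10, inv_one]), ?_, ?_⟩
  · calc r' = l⁻¹ * (l * r') := by field_simp
      _ = _ := by rw [← e1]; ring
  · calc s' = l⁻¹ * (l * s') := by field_simp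
      _ = _ := by rw [← e2]; ring

end Fermat.Agent.Switch
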