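import Mathlib
import Fermat.Prelude.Def_FLTPrelim_Modularity
import Fermat.Agent.Switch.Transitive
import Fermat.Agent.Arith.Places

/-!
# The family of curves attached to a semistable integral model

`exists_familyData`: through the point of the icosahedral family above a semistable `W` there is a
line on which the forms take values in `ℤ` at the parameters `M * n`, giving curves congruent to
`W` modulo `30 Δ` (`FamilyData`). It is used in `Switch/Iso` and `Switch/Semistable`.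
-/

set_option autoImplicit false

namespace Fermat.Agent.Switch

open Polynomial WeierstrassCurve

local notation "Qb" => AlgebraicClosure ℚ

/-! ### A point of the icosahedral family -/

section Point

variable {K : Type*} [Field K] [CharZero K]

/-- Every nondegenerate pair of invariants occurs on the icosahedral family. -/
theorem exists_forms_eq [IsAlgClosed K] {c₄ c₆ : K} (h4 : c₄ ≠ 0) (h6 : c₆ ≠ 0)
    (hd : c₄ ^ 3 - c₆ ^ 2 ≠ 0) :
    ∃ r s : K, fC4 r s = c₄ ∧ fC6 r s = c₆ ∧ fD r s ≠ 0 := by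
  -- Match `j` by a root of a polynomial of degree 60, then scale.
  set P : K[X] := fC4 X 1 ^ 3 * C (c₄ ^ 3 - c₆ ^ 2) - C (1728 * c₄ ^ 3) * fD X 1 ^ 5 with hP
  have hdeg : P.degree ≠ 0 := fun h => hd <| by
    rw [← coeff_pencil (c₄ ^ 3 - c₆ ^ 2) (1728 * c₄ ^ 3), ← hP, eq_C_of_degree_eq_zero h, coeff_C,
      if_neg (by norm_num)]
  obtain ⟨x, hx⟩ := IsAlgClosed.exists_root P hdeg
  simp only [hP, IsRoot.def, eval_sub, eval_mul, eval_C, eval_pow, eval_fD, eval_fC4, eval_X,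
    eval_one] at hx
  have hD : fD x 1 ≠ 0 := by
    intro h
    rw [h] at hx
    exact one_ne_zero (eq_zero_of_fC4_fD (by simpa [hd] using hx) h).2
  have hc4 : fC4 x 1 ≠ 0 := by
    intro h
    rw [h] at hx
    simp [h4, hD] at hx
  have hrel := fC4_cube_sub_fC6_sq x 1
  have hkey : c₆ ^ 2 * fC4 x 1 ^ 3 = c₄ ^ 3 * fC6 x 1 ^ 2 := by
    linear_combination c₄ ^ 3 * hrel - hx
  have hc6 : fC6 x 1 ≠ 0 := by
    intro h
    rw [h] at hkey
    simp [h6, hc4] at hkey
  set e := c₆ * fC4 x 1 / (fC6 x 1 * c₄) with he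
  have e2 : e ^ 2 * fC4 x 1 = c₄ := by
    rw [he]; field_simp; linear_combination hkey
  have e3 : e ^ 3 * fC6 x 1 = c₆ := by
    rw [he]; field_simp; linear_combination hkey
  -- Scale by a tenth root of `e`.
  obtain ⟨c, hc⟩ := IsAlgClosed.exists_pow_nat_eq e (show 0 < 10 by norm_num)
  have hc0 : c ≠ 0 := by
    intro h
    rw [h, zero_pow (by norm_num)] at hc
    rw [← hc] at e2
    simp [Ne.symm h4] at e2
  refine ⟨c * x, c * 1, ?_, ?_, ?_⟩
  · rw [fC4_smul, show c ^ 20 = (c ^ 10) ^ 2 by ring, hc, e2]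
  · rw [fC6_smul, show c ^ 30 = (c ^ 10) ^ 3 by ring, hc, e3]
  · rw [fD_smul]; exact mul_ne_zero (pow_ne_zero _ hc0) hD

/-- Some integral translate of the covariant vector avoids the zero set of `fD`. -/
theorem exists_int_fD_ne {r s : K} (hD : fD r s ≠ 0) :
    ∃ α : ℤ, fD ((α : K) * r - fDs r s) ((α : K) * s + fDr r s) ≠ 0 := by
  by_contra hall
  simp only [not_exists, ne_eq, not_not] at hall
  set P : K[X] := fD (C r - C (fDs r s) * X) (C s + C (fDr r s) * X) with hP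
  have hP0 : P = 0 := by
    refine eq_zero_of_infinite_isRoot _ ?_
    refine Set.infinite_of_injective_forall_mem
      (f := fun n : ℕ => ((n + 1 : ℕ) : K)⁻¹) (fun a b h => ?_) fun n => ?_
    · simpa using h
    · have h := hall (n + 1)
      simp only [Set.mem_ofPred_eq, IsRoot.def, hP, eval_fD, eval_sub, eval_add, eval_mul,
        eval_C, eval_X]
      have hn : ((n + 1 : ℕ) : K) ≠ 0 := Nat.cast_ne_zero.mpr (Nat.succ_ne_zero n)
      have key := fD_smul ((n + 1 : ℕ) : K)⁻¹ (((n + 1 : ℤ) : K) * r - fDs r s)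
        (((n + 1 : ℤ) : K) * s + fDr r s)
      rw [h, mul_zero] at key
      rw [← key]
      push_cast at hn ⊢
      congr 1 <;> field_simp
  have := congrArg (Polynomial.eval 0) hP0
  simp [hP, eval_fD, hD] at this

end Point

/-! ### Semistable models -/

section Semistable

variable {W : WeierstrassCurve ℤ}

/-- A semistable integral model has nonzero `c₄`. -/
theorem c₄_ne_zero_of_semistable (hW : W.IsSemistableModel) : W.c₄ ≠ 0 := by
  intro h0
  have hunit : W.Δ.natAbs = 1 := by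
    by_contra hne
    obtain ⟨p, hp, hdvd⟩ := Nat.exists_prime_and_dvd hne
    exact hW p hp (Int.natCast_dvd.mpr hdvd) (by rw [h0]; exact dvd_zero _)
  have hrel := W.c_relation
  rw [h0, zero_pow three_ne_zero, zero_sub] at hrel
  rcases Int.natAbs_eq W.Δ with h | h <;> rw [h, hunit] at hrel <;> push_cast at hrel
  · nlinarith [sq_nonneg W.c₆]
  · have h1 : W.c₆ ≤ 42 := by nlinarith
    have h2 : -42 ≤ W.c₆ := by nlinarith
    interval_cases hc : W.c₆ <;> norm_num at hrel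

theorem c₆_ne_zero_of_semistable (hW : W.IsSemistableModel) : W.c₆ ≠ 0 := by
  intro h0
  have hrel := W.c_relation
  rw [h0, zero_pow two_ne_zero, sub_zero] at hrel
  have hp' : ∀ p : ℕ, p.Prime → (p : ℤ) ∣ W.Δ → False := fun p hp hdvd =>
    hW p hp hdvd ((Nat.prime_iff_prime_int.mp hp).dvd_of_dvd_pow (n := 3)
      (hrel ▸ hdvd.mul_left 1728))
  -- `c₄ ^ 3 = 1728 Δ`, so no prime divides `Δ` and `c₄ = ±12`. Then `12 ∣ a₁ ^ 2 + 4 a₂`, so
  -- `24 ∣ c₄`, which is absurd.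
  have hunit : W.Δ.natAbs = 1 := by
    by_contra hne
    obtain ⟨p, hp, hdvd⟩ := Nat.exists_prime_and_dvd hne
    exact hp' p hp (Int.natCast_dvd.mpr hdvd)
  have hc : W.c₄ = 12 ∨ W.c₄ = -12 := by
    rcases Int.natAbs_eq W.Δ with h | h <;> rw [h, hunit] at hrel <;> push_cast at hrel
    · left; nlinarith [sq_nonneg (W.c₄ + 6), sq_nonneg (W.c₄ - 12)]
    · right; nlinarith [sq_nonneg (W.c₄ - 6), sq_nonneg (W.c₄ + 12)]
  have h4 : W.c₄ = (W.a₁ ^ 2 + 4 * W.a₂) ^ 2 - 24 * (2 * W.a₄ + W.a₁ * W.a₃) := rfl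
  set B := W.a₁ ^ 2 + 4 * W.a₂ with hB
  set B4 := 2 * W.a₄ + W.a₁ * W.a₃ with hB4
  obtain ⟨k, hk⟩ : (6 : ℤ) ∣ B := by
    have h12 : (12 : ℤ) ∣ B ^ 2 := by
      rcases hc with h | h <;> rw [h] at h4
      · exact ⟨1 + 2 * B4, by linarith⟩
      · exact ⟨-1 + 2 * B4, by linarith⟩
    have h2 : (2 : ℤ) ∣ B := Int.prime_two.dvd_of_dvd_pow (dvd_trans (by norm_num) h12)
    have h3 : (3 : ℤ) ∣ B := Int.prime_three.dvd_of_dvd_pow (dvd_trans (by norm_num) h12)
    omega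
  obtain ⟨a, ha⟩ : (2 : ℤ) ∣ W.a₁ := by
    refine Int.prime_two.dvd_of_dvd_pow (n := 2) ⟨3 * k - 2 * W.a₂, ?_⟩
    linarith
  have hk2 : 3 * k = 2 * (a ^ 2 + W.a₂) := by
    have : B = 4 * (a ^ 2 + W.a₂) := by rw [hB, ha]; ring
    linarith
  obtain ⟨m, hm⟩ : (2 : ℤ) ∣ k := by omega
  rw [hk, hm] at h4
  rcases hc with h | h <;> rw [h] at h4 <;> ring_nf at h4 <;> omega

end Semistable

/-! ### The data -/

/-- All the data of the family used for the switch. -/
structure FamilyData (W : WeierstrassCurve ℤ) where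
  /-- First coordinate of the base point, whose invariants are those of `W`. -/
  r₀ : Qb
  /-- Second coordinate of the base point. -/
  s₀ : Qb
  /-- First coordinate of the direction of the line, a translate of the covariant vector. -/
  u : Qb
  /-- Second coordinate of the direction. -/
  v : Qb
  /-- The step of the parameter: the member of index `n` sits at `M * n`. -/
  M : ℤ
  /-- The change of `a₄` at index `n`. -/
  d4 : ℤ → ℤ
  /-- The change of `a₆` at index `n`. -/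
  d6 : ℤ → ℤ
  /-- The multiple of the base point added to the covariant vector. -/
  α : ℤ
  hM : M ≠ 0
  c4_base : fC4 r₀ s₀ = (W.c₄ : Qb)
  c6_base : fC6 r₀ s₀ = (W.c₆ : Qb)
  fD_base : fD r₀ s₀ ≠ 0
  hu : u = (α : Qb) * r₀ - fDs r₀ s₀
  hv : v = (α : Qb) * s₀ + fDr r₀ s₀
  fD_dir : fD u v ≠ 0
  sym : ∀ σ : Qb ≃ₐ[ℚ] Qb, ∃ a b c d : Qb, IsSym a b c d ∧ σ r₀ = a * r₀ + b * s₀ ∧
    σ s₀ = c * r₀ + d * s₀ ∧ σ u = a * u + b * v ∧ σ v = c * u + d * v
  d4_dvd : ∀ n : ℤ, 30 * W.Δ ∣ d4 n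
  d6_dvd : ∀ n : ℤ, 30 * W.Δ ∣ d6 n
  c4_fib : ∀ n : ℤ, (((⟨W.a₁, W.a₂, W.a₃, W.a₄ + d4 n, W.a₆ + d6 n⟩ :
    WeierstrassCurve ℤ).c₄ : ℤ) : Qb)
      = fC4 (r₀ + ((M * n : ℤ) : Qb) * u) (s₀ + ((M * n : ℤ) : Qb) * v)
  c6_fib : ∀ n : ℤ, (((⟨W.a₁, W.a₂, W.a₃, W.a₄ + d4 n, W.a₆ + d6 n⟩ :
    WeierstrassCurve ℤ).c₆ : ℤ) : Qb)
      = fC6 (r₀ + ((M * n : ℤ) : Qb) * u) (s₀ + ((M * n : ℤ) : Qb) * v)

namespace FamilyData

variable {W : WeierstrassCurve ℤ} (F : FamilyData W)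

/-- The member of the family with parameter `M * n`. -/
def curve (n : ℤ) : WeierstrassCurve ℤ :=
  ⟨W.a₁, W.a₂, W.a₃, W.a₄ + F.d4 n, W.a₆ + F.d6 n⟩

/-- The value of the line parameter for index `n`. -/
noncomputable def par (n : ℤ) : Qb := ((F.M * n : ℤ) : Qb)

theorem det_eq : F.r₀ * F.v - F.s₀ * F.u = 12 * fD F.r₀ F.s₀ := by
  rw [F.hu, F.hv, ← euler_fD]; ring

/-- The discriminant of the given model is the fifth power of the form of degree twelve at the
base point. -/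
theorem Δ_base : fD F.r₀ F.s₀ ^ 5 = (W.Δ : Qb) := by
  apply mul_left_cancel₀ (show (1728 : Qb) ≠ 0 by norm_num)
  rw [← fC4_cube_sub_fC6_sq, F.c4_base, F.c6_base]
  exact_mod_cast W.c_relation.symm

/-- The discriminant of a member is the fifth power of the icosahedral form of degree twelve. -/
theorem Δ_curve (n : ℤ) :
    (((F.curve n).Δ : ℤ) : Qb)
      = fD (F.r₀ + F.par n * F.u) (F.s₀ + F.par n * F.v) ^ 5 := by
  apply mul_left_cancel₀ (show (1728 : Qb) ≠ 0 by norm_num)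
  rw [← fC4_cube_sub_fC6_sq]
  simp only [par, ← F.c4_fib, ← F.c6_fib]
  exact_mod_cast (F.curve n).c_relation

end FamilyData

/-! ### Existence -/

theorem exists_rat_poly {P : Qb[X]} (h : ∀ σ : Qb ≃ₐ[ℚ] Qb, P.map (σ : Qb →+* Qb) = P) :
    ∃ p : ℚ[X], p.map (algebraMap ℚ Qb) = P := by
  have : IsGalois ℚ Qb := Arith.qBar_isGalois
  rw [← Polynomial.mem_lifts, Polynomial.lifts_iff_coeff_lifts]
  intro n
  refine IntermediateField.mem_bot.mp ((InfiniteGalois.mem_bot_iff_fixed _).mpr fun σ => ?_)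
  conv_rhs => rw [← h σ]
  rw [coeff_map]
  rfl

theorem exists_int_values {p : ℚ[X]} (hp : p.eval 0 = 0) :
    ∃ b : ℤ, b ≠ 0 ∧ ∀ m n : ℤ, b ∣ n → ∃ z : ℤ, (z : ℚ) = p.eval ((m * n : ℤ) : ℚ) ∧ m ∣ z := by
  obtain ⟨q, rfl⟩ : X ∣ p := by rw [X_dvd_iff, coeff_zero_eq_eval_zero]; exact hp
  obtain ⟨b, hb, hq⟩ := IsLocalization.integerNormalization_spec (nonZeroDivisors ℤ) q
  refine ⟨b, nonZeroDivisors.ne_zero hb, fun m n ⟨k, hk⟩ => ?_⟩
  set q' := IsLocalization.integerNormalization (nonZeroDivisors ℤ) q with hq'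
  refine ⟨m * (k * q'.eval (m * n)), ?_, dvd_mul_right _ _⟩
  have e : ((q'.eval (m * n) : ℤ) : ℚ) = (b : ℚ) * q.eval ((m * n : ℤ) : ℚ) := by
    have := congrArg (Polynomial.eval ((m * n : ℤ) : ℚ)) hq
    rw [eval_smul, eval_intCast_map] at this
    simpa [zsmul_eq_mul] using this
  subst hk
  push_cast
  rw [e, eval_mul, eval_X]
  push_cast
  ring

/-- The Galois group acts on a point with invariants in `ℤ` and on its covariant vectors through
symmetries of the icosahedral forms. -/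
private theorem exists_sym_action {A B : ℤ} {r s z : Qb} (hz : IsPrimitiveRoot z 5)
    (e4 : fC4 r s = (A : Qb)) (e6 : fC6 r s = (B : Qb)) (h4 : (A : Qb) ≠ 0) (h6 : (B : Qb) ≠ 0)
    (eD : fD r s ≠ 0) (α : ℤ) (σ : Qb ≃ₐ[ℚ] Qb) :
    ∃ a b c d : Qb, IsSym a b c d ∧ σ r = a * r + b * s ∧ σ s = c * r + d * s ∧
      σ ((α : Qb) * r - fDs r s)
        = a * ((α : Qb) * r - fDs r s) + b * ((α : Qb) * s + fDr r s) ∧
      σ ((α : Qb) * s + fDr r s)
        = c * ((α : Qb) * r - fDs r s) + d * ((α : Qb) * s + fDr r s) := by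
  have k4 : fC4 (σ r) (σ s) = fC4 r s :=
    (map_fC4 (σ : Qb →+* Qb) r s).symm.trans (by simp [e4])
  have k6 : fC6 (σ r) (σ s) = fC6 r s :=
    (map_fC6 (σ : Qb →+* Qb) r s).symm.trans (by simp [e6])
  obtain ⟨a, b, c, d, hS, hr, hs⟩ := exists_isSym hz k4 k6 (by rw [e4]; exact h4)
    (by rw [e6]; exact h6) eD
  refine ⟨a, b, c, d, hS, hr, hs, ?_, ?_⟩
  · have k := hS.k1_eq r s
    rw [← hr, ← hs] at k
    have m : σ (fDs r s) = fDs (σ r) (σ s) := map_fDs (σ : Qb →+* Qb) r s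
    rw [map_sub, map_mul, map_intCast, m]
    linear_combination k + (α : Qb) * hr
  · have k := hS.k2_eq r s
    rw [← hr, ← hs] at k
    have m : σ (fDr r s) = fDr (σ r) (σ s) := map_fDr (σ : Qb →+* Qb) r s
    rw [map_add, map_mul, map_intCast, m]
    linear_combination k + (α : Qb) * hs

/-- A form invariant under the symmetries restricts to a rational polynomial on a line preserved
by the Galois action through them. -/
private theorem exists_rat_restriction {r s u v : Qb}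
    (hsym : ∀ σ : Qb ≃ₐ[ℚ] Qb, ∃ a b c d : Qb, IsSym a b c d ∧ σ r = a * r + b * s ∧
      σ s = c * r + d * s ∧ σ u = a * u + b * v ∧ σ v = c * u + d * v) (G : Qb → Qb → Qb)
    (P : Qb[X]) (hP : ∀ x, P.eval x = G (r + x * u) (s + x * v))
    (hG : ∀ (σ : Qb →+* Qb) a b, σ (G a b) = G (σ a) (σ b))
    (hinv : ∀ a b c d, IsSym a b c d → ∀ x y, G (a * x + b * y) (c * x + d * y) = G x y) :
    ∃ p : ℚ[X], ∀ x : ℚ, ((p.eval x : ℚ) : Qb) = G (r + (x : Qb) * u) (s + (x : Qb) * v) := by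
  obtain ⟨p, hp⟩ := exists_rat_poly (P := P) fun σ => Polynomial.funext fun x => by
    obtain ⟨a, b, c, d, hS, hr, hs, hu, hv⟩ := hsym σ
    obtain ⟨y, rfl⟩ := σ.surjective x
    rw [← RingHom.coe_coe σ, eval_map_apply, hP, hP, hG]
    simp only [RingHom.coe_coe, map_add, map_mul, hr, hs, hu, hv]
    conv_rhs => rw [← hinv a b c d hS]
    congr 1 <;> ring
  refine ⟨p, fun x => ?_⟩
  rw [← hP, ← hp, ← eq_ratCast (algebraMap ℚ Qb), ← eq_ratCast (algebraMap ℚ Qb) x, eval_map,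
    eval₂_at_apply]

/-- A semistable model has the data of a switching family. -/
theorem exists_familyData {W : WeierstrassCurve ℤ} (hΔ : W.Δ ≠ 0) (hW : W.IsSemistableModel) :
    Nonempty (FamilyData W) := by
  have h4 : (W.c₄ : Qb) ≠ 0 := Int.cast_ne_zero.mpr (c₄_ne_zero_of_semistable hW)
  have h6 : (W.c₆ : Qb) ≠ 0 := Int.cast_ne_zero.mpr (c₆_ne_zero_of_semistable hW)
  have hd : (W.c₄ : Qb) ^ 3 - (W.c₆ : Qb) ^ 2 ≠ 0 := by
    have e : (1728 : Qb) * (W.Δ : Qb) = (W.c₄ : Qb) ^ 3 - (W.c₆ : Qb) ^ 2 := by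
      exact_mod_cast W.c_relation
    rw [← e]
    exact mul_ne_zero (by norm_num) (Int.cast_ne_zero.mpr hΔ)
  -- Place `(c₄, c₆)` on the family; the direction `(u, v)` transforms like `(r, s)`.
  obtain ⟨r, s, e4, e6, eD⟩ := exists_forms_eq h4 h6 hd
  obtain ⟨α, hα⟩ := exists_int_fD_ne eD
  set u := (α : Qb) * r - fDs r s with hu
  set v := (α : Qb) * s + fDr r s with hv
  obtain ⟨z, hz⟩ := HasEnoughRootsOfUnity.exists_primitiveRoot Qb 5
  have hsym := exists_sym_action hz e4 e6 h4 h6 eD α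
  rw [← hu, ← hv] at hsym
  obtain ⟨p4, hev4⟩ := exists_rat_restriction hsym fC4 (fC4 (C r + X * C u) (C s + X * C v))
    (fun x => by simp only [eval_fC4, eval_add, eval_mul, eval_C, eval_X])
    (fun σ => map_fC4 σ) fun _ _ _ _ h => h.c4_eq
  obtain ⟨p6, hev6⟩ := exists_rat_restriction hsym fC6 (fC6 (C r + X * C u) (C s + X * C v))
    (fun x => by simp only [eval_fC6, eval_add, eval_mul, eval_C, eval_X])
    (fun σ => map_fC6 σ) fun _ _ _ _ h => h.c6_eq
  have z4 : p4.eval 0 = (W.c₄ : ℚ) := by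
    apply Rat.cast_injective (α := Qb)
    rw [hev4]; simp [e4]
  have z6 : p6.eval 0 = (W.c₆ : ℚ) := by
    apply Rat.cast_injective (α := Qb)
    rw [hev6]; simp [e6]
  -- The changes of `a₄` and `a₆` are rational polynomials vanishing at `0`, integral on multiples.
  set A4 : ℚ[X] := C (-1 / 48) * (p4 - C (W.c₄ : ℚ)) with hA4
  set A6 : ℚ[X] := C (-(W.b₂ : ℚ) / 576) * (p4 - C (W.c₄ : ℚ))
      - C (1 / 864) * (p6 - C (W.c₆ : ℚ)) with hA6
  obtain ⟨b4, hb4, hz4⟩ := exists_int_values (p := A4) (by simp [hA4, z4])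
  obtain ⟨b6, hb6, hz6⟩ := exists_int_values (p := A6) (by simp [hA6, z4, z6])
  choose z4' hz4' using fun n => hz4 (30 * W.Δ) (b4 * b6 * n) ⟨b6 * n, by ring⟩
  choose z6' hz6' using fun n => hz6 (30 * W.Δ) (b4 * b6 * n) ⟨b4 * n, by ring⟩
  have hMn : ∀ n : ℤ, 30 * W.Δ * (b4 * b6) * n = 30 * W.Δ * (b4 * b6 * n) := fun n => by ring
  refine ⟨{
    r₀ := r, s₀ := s, u := u, v := v, M := 30 * W.Δ * (b4 * b6), d4 := z4', d6 := z6',
    α := α,
    hM := mul_ne_zero (mul_ne_zero (by norm_num) hΔ) (mul_ne_zero hb4 hb6),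
    c4_base := e4, c6_base := e6, fD_base := eD, hu := rfl, hv := rfl, fD_dir := hα,
    sym := hsym, d4_dvd := fun n => (hz4' n).2, d6_dvd := fun n => (hz6' n).2,
    c4_fib := fun n => ?_, c6_fib := fun n => ?_ }⟩
  · rw [hMn, show (((30 * W.Δ * (b4 * b6 * n) : ℤ)) : Qb)
      = (((30 * W.Δ * (b4 * b6 * n) : ℤ) : ℚ) : Qb) by push_cast; rfl, ← hev4,
      ← Rat.cast_intCast]
    congr 1
    have e := (hz4' n).1
    simp only [hA4, eval_mul, eval_C, eval_sub] at e
    simp only [WeierstrassCurve.c₄, WeierstrassCurve.b₂, WeierstrassCurve.b₄] at e ⊢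
    push_cast at e ⊢
    linear_combination (-48 : ℚ) * e
  · rw [hMn, show (((30 * W.Δ * (b4 * b6 * n) : ℤ)) : Qb)
      = (((30 * W.Δ * (b4 * b6 * n) : ℤ) : ℚ) : Qb) by push_cast; rfl, ← hev6,
      ← Rat.cast_intCast]
    congr 1
    have e := (hz4' n).1
    have e' := (hz6' n).1
    simp only [hA4, hA6, eval_mul, eval_C, eval_sub] at e e'
    simp only [WeierstrassCurve.c₄, WeierstrassCurve.c₆, WeierstrassCurve.b₂,
      WeierstrassCurve.b₄, WeierstrassCurve.b₆] at e e' ⊢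
    push_cast at e e' ⊢
    linear_combination 72 * ((W.a₁ : ℚ) ^ 2 + 4 * W.a₂) * e - 864 * e'

end Fermat.Agent.Switch
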