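import Mathlib
import Fermat.Agent.Switch.Transitive

/-!
# Two 5-torsion sections over the icosahedral family: coordinates and identities

For parameters `(k, p)` of a fifth root of unity the section `(secX, secY)` doubles to the
conjugate one. It is used in `Switch/Sections`.

The coefficients of `secX`, `secYw` and of the two cofactors were found by computer algebra.
Nothing is assumed about them: what is used is `secY_sq` (the section is on the curve), `double_x`
and `double_y` (it doubles to the conjugate section), and `cofactor_self`, `cofactor_conj` (off the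
cusps `fD = 0` its image under `T` differs in abscissa from it and from its double, so the two
sections are independent 5-torsion points).
-/

set_option autoImplicit false
set_option maxRecDepth 2000

namespace Fermat.Agent.Switch

variable {K : Type*} [Field K] [CharZero K]

/-- Short-model abscissa of the standard 5-torsion section: a form of degree `10`, fixed by
`(r, s) ↦ (ζ r, ζ⁴ s)`. -/
def secX (k r s : K) : K :=
  ((-93 - 36 * k) * s ^ 10 + (198 + 396 * k) * r ^ 5 * s ^ 5 + (-57 + 36 * k) * r ^ 10) / 5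

/-- Short-model ordinate of the standard 5-torsion section, divided by `p`: a form of degree `15`
with coefficients in `ℚ(k) = ℚ(√5)`. -/
def secYw (k r s : K) : K :=
  ((-216 - 108 * k) * s ^ 15 + (2484 + 972 * k) * r ^ 5 * s ^ 10
    + (-972 + 2484 * k) * r ^ 10 * s ^ 5 + (-108 + 216 * k) * r ^ 15) / 5

/-- The conjugate parameters. -/
def Param.conj (π : Param K) : Param K where
  k := -1 - π.k
  p := π.k * π.p
  hk := by linear_combination π.hk
  hp := by linear_combination π.k ^ 2 * π.hp + (-2 - π.k) * π.hk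

omit [CharZero K] in
theorem Param.conj_conj_k (π : Param K) : π.conj.conj.k = π.k := by
  simp [Param.conj]

omit [CharZero K] in
theorem Param.conj_conj_p (π : Param K) : π.conj.conj.p = -π.p := by
  simp only [Param.conj]
  linear_combination -π.p * π.hk

/-- Short-model ordinate of the standard 5-torsion section. -/
def Param.secY (π : Param K) (r s : K) : K := π.p * secYw π.k r s

omit [CharZero K] in
theorem Param.secY_conj_conj (π : Param K) (r s : K) :
    π.conj.conj.secY r s = -π.secY r s := by
  simp only [Param.secY, π.conj_conj_k, π.conj_conj_p, neg_mul]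

/-- The section `(secX, secY)` lies on the short model `Y² = X³ - 27 fC4 X - 54 fC6`. -/
theorem Param.secY_sq (π : Param K) (r s : K) :
    π.secY r s ^ 2 = secX π.k r s ^ 3 - 27 * fC4 r s * secX π.k r s - 54 * fC6 r s := by
  obtain ⟨e2, e3, e4, e5, e6, e7, e8, e9, e10, e11, e12, e13, e14, e15, e16, e17⟩ := kpow π.hk
  rw [Param.secY, mul_pow, π.hp]
  simp only [secX, secYw, fC4, fC6]
  ring_nf
  simp only [e2, e3]
  ring

/-- The abscissa of twice the section is that of the conjugate section. -/
theorem Param.double_x (π : Param K) (r s : K) :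
    (3 * secX π.k r s ^ 2 - 27 * fC4 r s) ^ 2
      = 4 * π.secY r s ^ 2 * (secX π.conj.k r s + 2 * secX π.k r s) := by
  obtain ⟨e2, e3, e4, e5, e6, e7, e8, e9, e10, e11, e12, e13, e14, e15, e16, e17⟩ := kpow π.hk
  rw [Param.secY, mul_pow, π.hp]
  simp only [Param.conj, secX, secYw, fC4]
  ring_nf
  simp only [e2, e3, e4]
  ring

/-- The ordinate of twice the section is that of the conjugate section. -/
theorem Param.double_y (π : Param K) (r s : K) :
    2 * π.secY r s * π.conj.secY r s + 2 * π.secY r s ^ 2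
      + (3 * secX π.k r s ^ 2 - 27 * fC4 r s) * (secX π.conj.k r s - secX π.k r s) = 0 := by
  obtain ⟨e2, e3, e4, e5, e6, e7, e8, e9, e10, e11, e12, e13, e14, e15, e16, e17⟩ := kpow π.hk
  have hp := π.hp
  rw [show 2 * π.secY r s * π.conj.secY r s + 2 * π.secY r s ^ 2
      = 2 * π.p ^ 2 * (secYw π.k r s * (π.k * secYw π.conj.k r s + secYw π.k r s)) by
    simp only [Param.secY, Param.conj]; ring, hp]
  simp only [Param.conj, secX, secYw, fC4]
  ring_nf
  simp only [e2, e3, e4]
  ring

theorem Param.secY_ne_zero (π : Param K) {r s : K} (hD : fD r s ≠ 0) : π.secY r s ≠ 0 := by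
  intro hY
  have h1 := π.double_x r s
  rw [hY] at h1
  have hX : 3 * secX π.k r s ^ 2 - 27 * fC4 r s = 0 := by simpa using h1
  have h2 := π.secY_sq r s
  rw [hY] at h2
  have hX' : fC4 r s * secX π.k r s = -3 * fC6 r s := by
    linear_combination h2 / 18 + secX π.k r s / 54 * hX
  have h3 := fC4_cube_sub_fC6_sq r s
  have h0 : (1728 : K) * fD r s ^ 5 = 0 := by
    linear_combination -h3 - fC4 r s ^ 2 / 27 * hX
      + (fC4 r s * secX π.k r s - 3 * fC6 r s) / 9 * hX'
  simp [hD] at h0

/-- The symmetry `T` applied to `(r, s)`. -/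
def Param.tr (π : Param K) (r s : K) : K × K :=
  (-π.c * r + π.c * π.k * s, π.c * π.k * r + π.c * s)

theorem Param.fD_tr (π : Param K) (r s : K) : fD (π.tr r s).1 (π.tr r s).2 = fD r s :=
  π.isUni_T.fD_eq r s

theorem Param.fC4_tr (π : Param K) (r s : K) : fC4 (π.tr r s).1 (π.tr r s).2 = fC4 r s :=
  π.isUni_T.isSym.c4_eq r s

theorem Param.fC6_tr (π : Param K) (r s : K) : fC6 (π.tr r s).1 (π.tr r s).2 = fC6 r s :=
  π.isUni_T.isSym.c6_eq r s

theorem Param.secX_tr (π : Param K) (k r s : K) :
    secX k (π.tr r s).1 (π.tr r s).2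
      = (-(3 + π.k) / 5) ^ 5 * secX k (-r + π.k * s) (π.k * r + s) := by
  rw [← π.c_sq, ← pow_mul]
  simp only [Param.tr, secX]
  ring

/-- Certificate that the section moved by `T` and the section have different abscissae off the
cusps: their difference has a cofactor with product `36 fD²`. -/
theorem Param.cofactor_self (π : Param K) (r s : K) :
    (secX π.k (π.tr r s).1 (π.tr r s).2 - secX π.k r s)
      * ((3 + π.k) * r ^ 12 * s ^ 2 + (-10 - 5 * π.k) * r ^ 10 * s ^ 4
        + (10 + 5 * π.k) * r ^ 9 * s ^ 5 + (15 + 10 * π.k) * r ^ 8 * s ^ 6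
        + (-7 - 14 * π.k) * r ^ 7 * s ^ 7 + (-5 + 10 * π.k) * r ^ 5 * s ^ 9
        + (5 - 10 * π.k) * r ^ 4 * s ^ 10 + (-5 + 5 * π.k) * r ^ 3 * s ^ 11
        + (2 - π.k) * r ^ 2 * s ^ 12) = 36 * fD r s ^ 2 := by
  obtain ⟨e2, e3, e4, e5, e6, e7, e8, e9, e10, e11, e12, e13, e14, e15, e16, e17⟩ := kpow π.hk
  rw [π.secX_tr]
  simp only [secX, fD]
  ring_nf
  simp only [e2, e3, e4, e5, e6, e7, e8, e9, e10, e11, e12, e13, e14, e15, e16, e17]
  ring

/-- Certificate that the section moved by `T` and the double of the section have different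
abscissae off the cusps: their difference has a cofactor with product `36 fD²`. -/
theorem Param.cofactor_conj (π : Param K) (r s : K) :
    (secX π.k (π.tr r s).1 (π.tr r s).2 - secX π.conj.k r s)
      * ((2 - π.k) * r ^ 12 * s ^ 2 + (-5 + 5 * π.k) * r ^ 10 * s ^ 4
        + (5 - 5 * π.k) * r ^ 9 * s ^ 5 + (5 - 10 * π.k) * r ^ 8 * s ^ 6
        + (7 + 14 * π.k) * r ^ 7 * s ^ 7 + (-15 - 10 * π.k) * r ^ 5 * s ^ 9
        + (15 + 10 * π.k) * r ^ 4 * s ^ 10 + (-10 - 5 * π.k) * r ^ 3 * s ^ 11
        + (3 + π.k) * r ^ 2 * s ^ 12) = 36 * fD r s ^ 2 := by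
  obtain ⟨e2, e3, e4, e5, e6, e7, e8, e9, e10, e11, e12, e13, e14, e15, e16, e17⟩ := kpow π.hk
  rw [π.secX_tr]
  simp only [Param.conj, secX, fD]
  ring_nf
  simp only [e2, e3, e4, e5, e6, e7, e8, e9, e10, e11, e12, e13, e14, e15, e16, e17]
  ring

theorem Param.conj_tr_ne (π : Param K) {r s : K} (hD : fD r s ≠ 0) :
    secX π.k (π.tr r s).1 (π.tr r s).2 ≠ secX π.k r s ∧
      secX π.k (π.tr r s).1 (π.tr r s).2 ≠ secX π.conj.k r s := by
  constructor <;> intro h
  · have e := π.cofactor_self r s
    rw [h, sub_self, zero_mul] at e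
    simp [hD] at e
  · have e := π.cofactor_conj r s
    rw [h, sub_self, zero_mul] at e
    simp [hD] at e

end Fermat.Agent.Switch
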