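import Mathlib
import Fermat.Agent.Switch.Coord

/-!
# The two 5-torsion sections as points, and the basis they give

A curve over the vector `(r, s)` (`Fib`) has the points of the two sections; they form a basis
of its 5-torsion (`Fib.exists_comb_eq`). It is used in `Switch/Rigidity`.
-/

set_option autoImplicit false

namespace Fermat.Agent.Switch

open WeierstrassCurve

variable {K : Type*} [Field K] [CharZero K] [DecidableEq K]

/-- A curve lying over the vector `(r, s)`. -/
structure Fib (E : WeierstrassCurve K) (r s : K) : Prop where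
  c4_eq : E.c₄ = fC4 r s
  c6_eq : E.c₆ = fC6 r s
  fD_ne : fD r s ≠ 0

variable {E : WeierstrassCurve K} {r s : K}

omit [DecidableEq K] in
/-- A curve lying over a vector has nonzero discriminant. -/
theorem Fib.Δ_ne_zero (h : Fib E r s) : E.Δ ≠ 0 := by
  intro h0
  have e := E.c_relation
  rw [h0, mul_zero, h.c4_eq, h.c6_eq, fC4_cube_sub_fC6_sq] at e
  simpa [h.fD_ne] using e.symm

omit [DecidableEq K] in
theorem Fib.tr (h : Fib E r s) (π : Param K) : Fib E (π.tr r s).1 (π.tr r s).2 :=
  ⟨by rw [π.fC4_tr, h.c4_eq], by rw [π.fC6_tr, h.c6_eq], by rw [π.fD_tr]; exact h.fD_ne⟩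

variable (E) in
/-- The abscissa on `E` with short-model abscissa `X`. -/
def affX (X : K) : K := (X - 3 * E.b₂) / 36

variable (E) in
/-- The ordinate on `E` with short-model coordinates `(X, Y)`. -/
def affY (X Y : K) : K := (Y / 108 - E.a₁ * affX E X - E.a₃) / 2

omit [DecidableEq K] in
theorem affX_injective : Function.Injective (affX E) := fun a b h => by
  simp only [affX] at h; linear_combination 36 * h

omit [DecidableEq K] in
theorem negY_affY (X Y : K) :
    E.toAffine.negY (affX E X) (affY E X Y) = affY E X (-Y) := by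
  simp only [Affine.negY, affY]; ring

omit [DecidableEq K] in
theorem Fib.equation (h : Fib E r s) (π : Param K) :
    E.toAffine.Nonsingular (affX E (secX π.k r s)) (affY E (secX π.k r s) (π.secY r s)) := by
  refine (Affine.equation_iff_nonsingular_of_Δ_ne_zero h.Δ_ne_zero).mp
    ((Affine.equation_iff ..).mpr ?_)
  have e := π.secY_sq r s
  rw [← h.c4_eq, ← h.c6_eq] at e
  simp only [affX, affY, WeierstrassCurve.b₂, WeierstrassCurve.b₄, WeierstrassCurve.b₆,
    WeierstrassCurve.c₄, WeierstrassCurve.c₆] at e ⊢
  linear_combination e / 46656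

/-- The point of `E` given by the parameters `π` at `(r, s)`. -/
def Fib.point (h : Fib E r s) (π : Param K) : E.toAffine.Point :=
  .some _ _ (h.equation π)

omit [DecidableEq K] in
theorem Fib.point_conj_conj (h : Fib E r s) (π : Param K) :
    h.point π.conj.conj = -h.point π := by
  simp only [Fib.point, Affine.Point.neg_some, negY_affY,
    π.conj_conj_k, π.secY_conj_conj]

theorem Fib.two_nsmul_point (h : Fib E r s) (π : Param K) :
    2 • h.point π = h.point π.conj := by
  have hY : π.secY r s ≠ 0 := π.secY_ne_zero h.fD_ne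
  set X := secX π.k r s with hX
  set Y := π.secY r s with hYdef
  have hne : affY E X Y ≠ E.toAffine.negY (affX E X) (affY E X Y) := by
    rw [negY_affY]
    intro e
    simp only [affY] at e
    exact hY (by linear_combination 108 * e)
  rw [two_nsmul, Fib.point, Affine.Point.add_self_of_Y_ne hne, Fib.point]
  have hden : affY E X Y - E.toAffine.negY (affX E X) (affY E X Y) = Y / 108 := by
    rw [negY_affY]; simp only [affY]; ring
  set L := E.toAffine.slope (affX E X) (affX E X) (affY E X Y) (affY E X Y) with hL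
  have hLval : L = ((3 * X ^ 2 - 27 * fC4 r s) / (2 * Y) / 3 - E.a₁) / 2 := by
    rw [hL, Affine.slope_of_Y_ne rfl hne, hden, ← h.c4_eq]
    simp only [affX, affY, WeierstrassCurve.b₂, WeierstrassCurve.b₄, WeierstrassCurve.c₄]
    field_simp
    ring
  have hX2 : secX π.conj.k r s
      = ((3 * X ^ 2 - 27 * fC4 r s) / (2 * Y)) ^ 2 - 2 * X := by
    field_simp
    linear_combination -π.double_x r s
  have hY2 : π.conj.secY r s
      = -(Y + (3 * X ^ 2 - 27 * fC4 r s) / (2 * Y) * (secX π.conj.k r s - X)) := by
    field_simp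
    linear_combination π.double_y r s
  simp only [Affine.Point.some.injEq]
  have ex : E.toAffine.addX (affX E X) (affX E X) L = affX E (secX π.conj.k r s) := by
    rw [hLval, hX2]
    simp only [Affine.addX, affX, WeierstrassCurve.b₂]
    ring
  refine ⟨ex, ?_⟩
  rw [Affine.addY, Affine.negAddY, ex, hY2, ← hL, hLval]
  simp only [Affine.negY, affY, affX]
  ring

/-- The sections give points killed by `5`. -/
theorem Fib.five_nsmul_point (h : Fib E r s) (π : Param K) : 5 • h.point π = 0 := by
  rw [show 5 = 2 * 2 + 1 by rfl, add_nsmul, mul_nsmul, h.two_nsmul_point, h.two_nsmul_point,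
    h.point_conj_conj, one_nsmul, neg_add_cancel]

omit [DecidableEq K] in
theorem Fib.point_ne_zero (h : Fib E r s) (π : Param K) : h.point π ≠ 0 :=
  Affine.Point.some_ne_zero _

variable (π : Param K)

/-- The first basis point. -/
def Fib.baseP (h : Fib E r s) : E.toAffine.Point := h.point π

/-- The second basis point. -/
def Fib.baseQ (h : Fib E r s) : E.toAffine.Point := (h.tr π).point π

/-- The combinations of the two basis points. -/
def Fib.comb (h : Fib E r s) : ZMod 5 × ZMod 5 → E.toAffine.Point :=
  fun mn => mn.1.val • h.baseP π + mn.2.val • h.baseQ π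

theorem Fib.five_nsmul_comb (h : Fib E r s) (mn : ZMod 5 × ZMod 5) :
    5 • h.comb π mn = 0 := by
  simp only [Fib.comb, nsmul_add, Fib.baseP, Fib.baseQ]
  rw [nsmul_left_comm, h.five_nsmul_point, nsmul_left_comm, (h.tr π).five_nsmul_point,
    nsmul_zero, nsmul_zero, add_zero]

theorem val_nsmul_eq {G : Type*} [AddCommGroup G] {P : G} (hP : 5 • P = 0) {a : ZMod 5} {n : ℕ}
    (h : (n : ZMod 5) = a) : a.val • P = n • P := by
  subst h
  rw [ZMod.val_natCast]
  conv_rhs => rw [← Nat.mod_add_div n 5, add_nsmul, mul_nsmul, hP, nsmul_zero, add_zero]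

theorem Fib.comb_add (h : Fib E r s) (a b : ZMod 5 × ZMod 5) :
    h.comb π (a + b) = h.comb π a + h.comb π b := by
  simp only [Fib.comb, Fib.baseP, Fib.baseQ, Prod.fst_add, Prod.snd_add]
  rw [val_nsmul_eq (h.five_nsmul_point π) (n := a.1.val + b.1.val) (by simp),
    val_nsmul_eq ((h.tr π).five_nsmul_point π) (n := a.2.val + b.2.val) (by simp),
    add_nsmul, add_nsmul]
  abel

/-- `Fib.comb` as a group homomorphism. -/
def Fib.combHom (h : Fib E r s) : ZMod 5 × ZMod 5 →+ E.toAffine.Point :=
  AddMonoidHom.mk' (h.comb π) (h.comb_add π)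

theorem Fib.multiple_cases (h : Fib E r s) (a : ZMod 5) (ha : a ≠ 0) :
    a.val • h.point π = h.point π ∨ a.val • h.point π = -h.point π ∨
      a.val • h.point π = h.point π.conj ∨ a.val • h.point π = -h.point π.conj := by
  have h2 := h.two_nsmul_point π
  have h4 : 4 • h.point π = -h.point π := by
    rw [show 4 = 2 * 2 by rfl, mul_nsmul, h2, h.two_nsmul_point, h.point_conj_conj]
  have h3 : 3 • h.point π = -h.point π.conj := by
    rw [← h2, eq_neg_iff_add_eq_zero, ← add_nsmul]
    exact h.five_nsmul_point π
  have hlt := ZMod.val_lt a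
  have hne : a.val ≠ 0 := fun e => ha ((ZMod.val_eq_zero a).mp e)
  interval_cases hv : a.val
  · exact absurd rfl hne
  · exact Or.inl (one_nsmul _)
  · exact Or.inr (Or.inr (Or.inl h2))
  · exact Or.inr (Or.inr (Or.inr h3))
  · exact Or.inr (Or.inl h4)

theorem Fib.baseQ_ne (h : Fib E r s) (a : ZMod 5) : h.baseQ π ≠ a.val • h.point π := by
  by_cases ha : a = 0
  · subst ha; simp [Fib.baseQ, Fib.point_ne_zero]
  obtain ⟨n1, n2⟩ := π.conj_tr_ne h.fD_ne
  rcases h.multiple_cases π a ha with e | e | e | e <;> rw [e] <;>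
    simp only [Fib.baseQ, Fib.point, Affine.Point.neg_some, ne_eq, Affine.Point.some.injEq,
      not_and] <;> intro hx <;> exfalso
  · exact n1 (affX_injective hx)
  · exact n1 (affX_injective hx)
  · exact n2 (affX_injective hx)
  · exact n2 (affX_injective hx)

/-- The two basis points are independent. -/
theorem Fib.comb_injective (h : Fib E r s) : Function.Injective (h.combHom π) := by
  have : Fact (Nat.Prime 5) := ⟨by norm_num⟩
  rw [injective_iff_map_eq_zero]
  rintro ⟨a, b⟩ hab
  change a.val • h.baseP π + b.val • h.baseQ π = 0 at hab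
  by_cases hb : b = 0
  · subst hb
    simp only [ZMod.val_zero, zero_nsmul, add_zero, Fib.baseP] at hab
    by_contra hne
    have ha : a ≠ 0 := fun e => hne (by simp [e])
    rcases h.multiple_cases π a ha with e | e | e | e <;> rw [e] at hab <;>
      simp [Fib.point_ne_zero] at hab
  · exfalso
    have e : b⁻¹.val • (a.val • h.baseP π + b.val • h.baseQ π) = 0 := by rw [hab, nsmul_zero]
    rw [nsmul_add, ← mul_nsmul', ← mul_nsmul', Fib.baseP, Fib.baseQ,
      ← val_nsmul_eq ((h.tr π).five_nsmul_point π) (a := 1) (by simp [hb]),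
      ← val_nsmul_eq (h.five_nsmul_point π) (a := b⁻¹ * a) (by simp), ZMod.val_one,
      one_nsmul] at e
    refine h.baseQ_ne π (-(b⁻¹ * a)) ?_
    have := val_nsmul_eq (h.five_nsmul_point π) (a := 0)
      (n := (-(b⁻¹ * a)).val + (b⁻¹ * a).val) (by simp)
    rw [ZMod.val_zero, zero_nsmul, add_nsmul] at this
    rw [Fib.baseQ, eq_neg_of_add_eq_zero_left this.symm]
    exact eq_neg_of_add_eq_zero_right e

/-- Every point of order dividing `5` is a combination of the two basis points. -/
theorem Fib.exists_comb_eq (h : Fib E r s)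
    (hcard : Nat.card (Submodule.torsionBy ℤ E.toAffine.Point (5 : ℕ)) = 25)
    {P : E.toAffine.Point} (hP : 5 • P = 0) : ∃ mn, h.comb π mn = P := by
  set T := Submodule.torsionBy ℤ E.toAffine.Point (5 : ℕ) with hT
  have : Finite T := Nat.finite_of_card_ne_zero (by rw [hcard]; norm_num)
  have hmem : ∀ mn, h.comb π mn ∈ T := fun mn => by
    rw [hT, Submodule.mem_torsionBy_iff, natCast_zsmul]
    exact h.five_nsmul_comb π mn
  let g : ZMod 5 × ZMod 5 → T := fun mn => ⟨h.comb π mn, hmem mn⟩
  have hinj : Function.Injective g := fun a b e =>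
    h.comb_injective π (congrArg Subtype.val e)
  have hbij : Function.Bijective g := by
    rw [Nat.bijective_iff_injective_and_card]
    exact ⟨hinj, by simp [hcard]⟩
  have hPT : P ∈ T := by
    rw [hT, Submodule.mem_torsionBy_iff, natCast_zsmul]
    exact hP
  obtain ⟨mn, hmn⟩ := hbij.2 ⟨P, hPT⟩
  exact ⟨mn, congrArg Subtype.val hmn⟩

end Fermat.Agent.Switch
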