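import Mathlib
import Fermat.Prelude.Def_EllipticCurve_FrobeniusTrace
import Fermat.Agent.EC.Torsion.Galois
import Fermat.Agent.Switch.Rigidity
import Fermat.Agent.Switch.Family

/-!
# The Galois equivariant identification of the 5-torsion along the family

The matrix by which a Galois automorphism acts on the two sections is constant along the family
(`FamilyData.exists_action`, by `Switch/Rigidity`), so two rational members have congruent traces
modulo 5 (`FamilyData.galoisTrace_eq`).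
-/

set_option autoImplicit false

namespace Fermat.Agent.Switch

open WeierstrassCurve WeierstrassCurve.Affine Polynomial

local notation "Qb" => AlgebraicClosure ℚ

/-- In characteristic zero a curve is determined by `a₁`, `a₂`, `a₃`, `c₄` and `c₆`. -/
theorem curve_ext {K : Type*} [Field K] [CharZero K] {E E' : WeierstrassCurve K}
    (h1 : E.a₁ = E'.a₁) (h2 : E.a₂ = E'.a₂) (h3 : E.a₃ = E'.a₃) (h4 : E.c₄ = E'.c₄)
    (h6 : E.c₆ = E'.c₆) : E = E' := by
  simp only [WeierstrassCurve.c₄, WeierstrassCurve.c₆, WeierstrassCurve.b₂, WeierstrassCurve.b₄,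
    WeierstrassCurve.b₆, h1, h2, h3] at h4 h6
  have e4 : E.a₄ = E'.a₄ := by linear_combination -h4 / 48
  refine WeierstrassCurve.ext h1 h2 h3 e4 ?_
  rw [e4] at h6
  linear_combination -h6 / 864

/-- The image of a parameter under a field automorphism. -/
def Param.mapAut {K : Type*} [Field K] (π : Param K) (σ : K →+* K) : Param K where
  k := σ π.k
  p := σ π.p
  hk := by rw [← map_pow, ← map_add, π.hk, map_one]
  hp := by rw [← map_pow, π.hp, map_sub, map_neg, map_ofNat]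

theorem map_secX {K : Type*} [Field K] (σ : K →+* K) (k r s : K) :
    σ (secX k r s) = secX (σ k) (σ r) (σ s) := by
  simp [secX, map_ofNat]

theorem Param.map_secY {K : Type*} [Field K] (π : Param K) (σ : K →+* K) (r s : K) :
    σ (π.secY r s) = (π.mapAut σ).secY (σ r) (σ s) := by
  simp [Param.secY, secYw, Param.mapAut, map_ofNat]

theorem Param.map_tr {K : Type*} [Field K] (π : Param K) (σ : K →+* K) (r s : K) :
    (σ (π.tr r s).1, σ (π.tr r s).2) = (π.mapAut σ).tr (σ r) (σ s) := by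
  simp [Param.tr, Param.c, Param.mapAut, map_ofNat]

theorem smul_point (V : WeierstrassCurve ℚ) {r s : Qb} (h : Fib (V⁄Qb) r s) (π : Param Qb)
    (σ : Qb ≃ₐ[ℚ] Qb) {r' s' : Qb} (hr : σ r = r') (hs : σ s = s')
    (h' : Fib (V⁄Qb) r' s') :
    σ • (h.point π : (V⁄Qb).toAffine.Point) = h'.point (π.mapAut (σ : Qb →+* Qb)) := by
  subst hr hs
  have ex : σ (affX (V⁄Qb) (secX π.k r s))
      = affX (V⁄Qb) (secX (σ π.k) (σ r) (σ s)) := by
    have := map_secX (σ : Qb →+* Qb) π.k r s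
    simp only [RingHom.coe_coe] at this
    simp [affX, this, map_ofNat, WeierstrassCurve.b₂]
  have hY := π.map_secY (σ : Qb →+* Qb) r s
  simp only [RingHom.coe_coe] at hY
  have ey : σ (affY (V⁄Qb) (secX π.k r s) (π.secY r s))
      = affY (V⁄Qb) (secX (σ π.k) (σ r) (σ s))
          ((π.mapAut (σ : Qb →+* Qb)).secY (σ r) (σ s)) := by
    simp [affY, map_sub, map_mul, map_div₀, ex, hY, map_ofNat]
  simp only [Fib.point, Param.mapAut, RingHom.coe_coe] at ex ey ⊢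
  show Point.map σ.toAlgHom _ = _
  rw [Point.map_some]
  simp only [Point.some.injEq]
  exact ⟨ex, ey⟩

variable {W : WeierstrassCurve ℤ}

/-- The curve at parameter `t`, over `Qb`. -/
noncomputable def FamilyData.fiber (F : FamilyData W) (t : Qb) : WeierstrassCurve Qb :=
  ⟨W.a₁, W.a₂, W.a₃,
    (W.a₄ : Qb) - (fC4 (F.r₀ + t * F.u) (F.s₀ + t * F.v) - W.c₄) / 48,
    (W.a₆ : Qb) - (W.b₂ : Qb) * (fC4 (F.r₀ + t * F.u) (F.s₀ + t * F.v) - W.c₄) / 576
      - (fC6 (F.r₀ + t * F.u) (F.s₀ + t * F.v) - W.c₆) / 864⟩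

theorem FamilyData.fib_fiber (F : FamilyData W) {t : Qb}
    (ht : fD (F.r₀ + t * F.u) (F.s₀ + t * F.v) ≠ 0) :
    Fib (F.fiber t) (F.r₀ + t * F.u) (F.s₀ + t * F.v) := by
  refine ⟨?_, ?_, ht⟩
  · simp only [FamilyData.fiber, WeierstrassCurve.c₄, WeierstrassCurve.b₂, WeierstrassCurve.b₄]
    push_cast
    ring
  · simp only [FamilyData.fiber, WeierstrassCurve.c₄, WeierstrassCurve.c₆, WeierstrassCurve.b₂,
      WeierstrassCurve.b₄, WeierstrassCurve.b₆]
    push_cast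
    ring

theorem FamilyData.eq_fiber (F : FamilyData W) {t : Qb} {E : WeierstrassCurve Qb}
    (h1 : E.a₁ = W.a₁) (h2 : E.a₂ = W.a₂) (h3 : E.a₃ = W.a₃)
    (h : Fib E (F.r₀ + t * F.u) (F.s₀ + t * F.v)) : E = F.fiber t :=
  curve_ext h1 h2 h3 (h.c4_eq.trans (F.fib_fiber h.fD_ne).c4_eq.symm)
    (h.c6_eq.trans (F.fib_fiber h.fD_ne).c6_eq.symm)

theorem natCard_torsion_five {E : WeierstrassCurve Qb} (hΔ : E.Δ ≠ 0) :
    Nat.card (Submodule.torsionBy ℤ E.toAffine.Point (5 : ℕ)) = 25 := by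
  have : E.IsElliptic := ⟨isUnit_iff_ne_zero.mpr hΔ⟩
  rw [EC.Torsion.natCard_torsionBy E.toAffine (n := 5) (by norm_num)]
  norm_num

theorem FamilyData.infinite_param (F : FamilyData W) :
    {t : Qb | fD (F.r₀ + t * F.u) (F.s₀ + t * F.v) ≠ 0}.Infinite := by
  set P : Qb[X] := fD (C F.r₀ + X * C F.u) (C F.s₀ + X * C F.v) with hP
  have hP0 : P ≠ 0 := fun h => F.fD_base <| by
    have := congrArg (Polynomial.eval 0) h
    simpa [hP, eval_fD] using this
  convert Set.Finite.infinite_compl (finite_setOfPred_isRoot hP0) using 1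
  ext t
  simp only [hP, Set.mem_compl_iff, Set.mem_ofPred_eq, IsRoot.def, eval_fD, eval_add, eval_mul,
    eval_C, eval_X, ne_eq]

/-- The action of a Galois automorphism on the two sections is constant along the family. -/
theorem FamilyData.exists_action (F : FamilyData W) (π : Param Qb) (σ : Qb ≃ₐ[ℚ] Qb) :
    ∃ g₁ g₂ : ZMod 5 × ZMod 5, ∀ (V : WeierstrassCurve ℚ) (t : ℚ),
      (V⁄Qb).a₁ = W.a₁ → (V⁄Qb).a₂ = W.a₂ → (V⁄Qb).a₃ = W.a₃ →
      ∀ h : Fib (V⁄Qb) (F.r₀ + (t : Qb) * F.u) (F.s₀ + (t : Qb) * F.v),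
        σ • (h.baseP π : (V⁄Qb).toAffine.Point) = h.comb π g₁ ∧
        σ • (h.baseQ π : (V⁄Qb).toAffine.Point) = h.comb π g₂ := by
  -- `σ` acts on the parameters by a fixed substitution.
  obtain ⟨a, b, c, d, hS, hr, hs, hu, hv⟩ := F.sym σ
  set π' := π.mapAut (σ : Qb →+* Qb) with hπ'
  set U : Set Qb := {t : Qb | fD (F.r₀ + t * F.u) (F.s₀ + t * F.v) ≠ 0} with hU
  have hfib : ∀ t : U, Fib (F.fiber t) (F.r₀ + (t : Qb) * F.u) (F.s₀ + (t : Qb) * F.v) :=
    fun t => F.fib_fiber t.2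
  have hA : ConstA U F.fiber (W.a₁ : Qb) W.a₂ W.a₃ := fun t _ => ⟨rfl, rfl, rfl⟩
  set R : Qb → Qb := fun t => a * (F.r₀ + t * F.u) + b * (F.s₀ + t * F.v) with hR
  set S : Qb → Qb := fun t => c * (F.r₀ + t * F.u) + d * (F.s₀ + t * F.v) with hSdef
  have hr0 : IsRat U fun t => F.r₀ + t * F.u :=
    (isRat_const _).add (isRat_id.mul (isRat_const _))
  have hs0 : IsRat U fun t => F.s₀ + t * F.v :=
    (isRat_const _).add (isRat_id.mul (isRat_const _))
  have hR' : IsRat U R := ((isRat_const _).mul hr0).add ((isRat_const _).mul hs0)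
  have hS' : IsRat U S := ((isRat_const _).mul hr0).add ((isRat_const _).mul hs0)
  have hfib' : ∀ t : U, Fib (F.fiber t) (R t) (S t) := fun t => by
    refine ⟨by rw [(hfib t).c4_eq, hR, hSdef, hS.c4_eq], by rw [(hfib t).c6_eq, hR, hSdef,
      hS.c6_eq], fun h0 => (hfib t).fD_ne ?_⟩
    have e := fC4_cube_sub_fC6_sq (R t) (S t)
    simp only [hR, hSdef] at e h0
    rw [hS.c4_eq, hS.c6_eq, fC4_cube_sub_fC6_sq, h0] at e
    simpa using e
  have hcard : ∀ t : U,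
      Nat.card (Submodule.torsionBy ℤ (F.fiber t).toAffine.Point (5 : ℕ)) = 25 :=
    fun t => natCard_torsion_five (hfib t).Δ_ne_zero
  obtain ⟨hR2, hS2⟩ := isRat_tr π' hR' hS'
  -- The conjugate points are rational in `t`, so their coordinates in the basis are constant.
  obtain ⟨g₁, hg₁⟩ := exists_const_comb hA π hr0 hs0 hfib F.infinite_param hcard
    (isRatPt_point hA π' hR' hS' hfib') (fun t => (hfib' t).five_nsmul_point π')
  obtain ⟨g₂, hg₂⟩ := exists_const_comb hA π hr0 hs0 hfib F.infinite_param hcard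
    (isRatPt_point hA π' hR2 hS2 fun t => (hfib' t).tr π')
    (fun t => ((hfib' t).tr π').five_nsmul_point π')
  refine ⟨g₁, g₂, fun V t h1 h2 h3 h => ?_⟩
  have hmove : ∀ {E : WeierstrassCurve Qb}, E = F.fiber t →
      ∀ (k : Fib E (F.r₀ + (t : Qb) * F.u) (F.s₀ + (t : Qb) * F.v))
        (k' : Fib E (R t) (S t)),
        k'.point π' = k.comb π g₁ ∧ (k'.tr π').point π' = k.comb π g₂ := by
    rintro E rfl k k'
    exact ⟨hg₁ ⟨t, k.fD_ne⟩, hg₂ ⟨t, k.fD_ne⟩⟩
  have eR : σ (F.r₀ + (t : Qb) * F.u) = R t := by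
    simp only [map_add, map_mul, map_ratCast, hr, hu, hR]; ring
  have eS : σ (F.s₀ + (t : Qb) * F.v) = S t := by
    simp only [map_add, map_mul, map_ratCast, hs, hv, hSdef]; ring
  have hk : Fib (V⁄Qb) (R t) (S t) := by
    have k := hfib' ⟨t, h.fD_ne⟩
    rw [← F.eq_fiber h1 h2 h3 h] at k
    exact k
  obtain ⟨e1, e2⟩ := hmove (F.eq_fiber h1 h2 h3 h) h hk
  refine ⟨by rw [Fib.baseP, smul_point V h π σ eR eS hk, e1], ?_⟩
  have ht := π.map_tr (σ : Qb →+* Qb) (F.r₀ + (t : Qb) * F.u) (F.s₀ + (t : Qb) * F.v)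
  simp only [RingHom.coe_coe, eR, eS, Prod.ext_iff] at ht
  rw [Fib.baseQ, smul_point V (h.tr π) π σ ht.1 ht.2 (hk.tr π'), e2]

/-- The coordinate system on the 5-torsion given by the two sections. -/
noncomputable def torsionEquiv {E : WeierstrassCurve Qb} {r s : Qb} (h : Fib E r s)
    (π : Param Qb) :
    (ZMod 5 × ZMod 5) ≃+ Submodule.torsionBy ℤ E.toAffine.Point (5 : ℕ) :=
  AddEquiv.ofBijective
    ((h.combHom π).codRestrict (Submodule.torsionBy ℤ E.toAffine.Point (5 : ℕ)).toAddSubgroup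
      fun mn => by
        rw [Submodule.mem_toAddSubgroup, Submodule.mem_torsionBy_iff, natCast_zsmul]
        exact h.five_nsmul_comb π mn)
    ⟨fun _ _ hab => h.comb_injective π (congrArg Subtype.val hab), fun P => by
      obtain ⟨mn, hmn⟩ := h.exists_comb_eq π (natCard_torsion_five h.Δ_ne_zero) (P := P.1)
        (by rw [← natCast_zsmul]; exact (Submodule.mem_torsionBy_iff _ _).mp P.2)
      exact ⟨mn, Subtype.ext hmn⟩⟩

theorem smul_comb {V : WeierstrassCurve ℚ} {r s : Qb} (h : Fib (V⁄Qb) r s) (π : Param Qb)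
    (σ : Qb ≃ₐ[ℚ] Qb) {g₁ g₂ : ZMod 5 × ZMod 5}
    (hσ : σ • (h.baseP π : (V⁄Qb).toAffine.Point) = h.comb π g₁ ∧
      σ • (h.baseQ π : (V⁄Qb).toAffine.Point) = h.comb π g₂) (mn : ZMod 5 × ZMod 5) :
    σ • (h.comb π mn : (V⁄Qb).toAffine.Point)
      = h.comb π (mn.1.val • g₁ + mn.2.val • g₂) := by
  have hn := fun (k : ℕ) P => map_nsmul (DistribSMul.toAddMonoidHom (V⁄Qb).toAffine.Point σ) k P
  simp only [DistribSMul.toAddMonoidHom_apply] at hn
  show σ • (mn.1.val • h.baseP π + mn.2.val • h.baseQ π : (V⁄Qb).toAffine.Point) = _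
  change _ = h.combHom π (mn.1.val • g₁ + mn.2.val • g₂)
  rw [smul_add, hn, hn, hσ.1, hσ.2, map_add, map_nsmul, map_nsmul]
  rfl

/-- Two rational members of the family have the same mod 5 Frobenius traces. -/
theorem FamilyData.galoisTrace_eq (F : FamilyData W) (V₁ V₂ : WeierstrassCurve ℚ) (t₁ t₂ : ℚ)
    (ha : ∀ V ∈ ({V₁, V₂} : Set (WeierstrassCurve ℚ)),
      (V⁄Qb).a₁ = W.a₁ ∧ (V⁄Qb).a₂ = W.a₂ ∧ (V⁄Qb).a₃ = W.a₃)
    (h₁ : Fib (V₁⁄Qb) (F.r₀ + (t₁ : Qb) * F.u) (F.s₀ + (t₁ : Qb) * F.v))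
    (h₂ : Fib (V₂⁄Qb) (F.r₀ + (t₂ : Qb) * F.u) (F.s₀ + (t₂ : Qb) * F.v))
    (σ : Qb ≃ₐ[ℚ] Qb) :
    Point.galoisTrace (K := Qb) ℚ V₁.toAffine 5 σ
      = Point.galoisTrace (K := Qb) ℚ V₂.toAffine 5 σ := by
  obtain ⟨z, hz⟩ := HasEnoughRootsOfUnity.exists_primitiveRoot Qb 5
  set π := paramOfRoot hz with hπ
  obtain ⟨g₁, g₂, hg⟩ := F.exists_action π σ
  obtain ⟨a1, a2, a3⟩ := ha V₁ (Set.mem_insert _ _)
  obtain ⟨b1, b2, b3⟩ := ha V₂ (Set.mem_insert_of_mem _ rfl)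
  have k1 := hg V₁ t₁ a1 a2 a3 h₁
  have k2 := hg V₂ t₂ b1 b2 b3 h₂
  set T₁ := Submodule.torsionBy ℤ (V₁⁄Qb).toAffine.Point (5 : ℕ)
  set T₂ := Submodule.torsionBy ℤ (V₂⁄Qb).toAffine.Point (5 : ℕ)
  let φ : T₁ ≃+ T₂ := (torsionEquiv h₁ π).symm.trans (torsionEquiv h₂ π)
  let φl : T₁ ≃ₗ[ZMod 5] T₂ :=
    { φ with map_smul' := fun c x => ZMod.map_smul φ.toAddMonoidHom c x }
  rw [Point.galoisTrace_def, Point.galoisTrace_def,
    ← LinearMap.trace_conj' (Point.galoisRepModuleEnd (K := Qb) ℚ V₁.toAffine 5 σ) φl]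
  congr 1
  refine LinearMap.ext fun y => ?_
  obtain ⟨mn, rfl⟩ := (torsionEquiv h₂ π).surjective y
  rw [LinearEquiv.conj_apply_apply]
  have hsymm : φl.symm (torsionEquiv h₂ π mn) = torsionEquiv h₁ π mn := by
    rw [LinearEquiv.symm_apply_eq]
    show _ = φ _
    simp [φ]
  have e1 : σ • torsionEquiv h₁ π mn
      = torsionEquiv h₁ π (mn.1.val • g₁ + mn.2.val • g₂) :=
    Subtype.ext (smul_comb h₁ π σ k1 mn)
  have e2 : σ • torsionEquiv h₂ π mn
      = torsionEquiv h₂ π (mn.1.val • g₁ + mn.2.val • g₂) :=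
    Subtype.ext (smul_comb h₂ π σ k2 mn)
  rw [hsymm, Point.galoisRepModuleEnd_apply, Point.galoisRepModuleEnd_apply, e1, e2]
  show φ _ = _
  simp [φ]

end Fermat.Agent.Switch
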