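import Mathlib

/-!
# Quartics with integral roots at every integer parameter

If `3y⁴ + 6A(t)y² + 12B(t)y - A(t)²` has an integral root at every natural `t`, and is
separable at infinity for the weights `(20, 30, 10)`, then it has a polynomial root of degree
at most `10`. The proof uses truncated expansions at infinity, Hales-Jewett and finite differences.

The main theorem is `exists_polynomial_root`.
-/

set_option autoImplicit false

namespace Fermat.Agent.Switch

open Polynomial Filter Topology Finset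

/-! ### The quartic -/

/-- The quartic. -/
def quartic {R : Type*} [CommRing R] (A B y : R) : R :=
  3 * y ^ 4 + 6 * A * y ^ 2 + 12 * B * y - A ^ 2

/-- Its derivative in `y`. -/
def quarticDeriv {R : Type*} [CommRing R] (A B y : R) : R :=
  12 * y ^ 3 + 12 * A * y + 12 * B

theorem quartic_add {R : Type*} [CommRing R] (A B y h : R) :
    quartic A B (y + h) = quartic A B y + h * quarticDeriv A B y
      + h ^ 2 * (18 * y ^ 2 + 12 * y * h + 3 * h ^ 2 + 6 * A) := by
  simp only [quartic, quarticDeriv]; ring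

theorem eval_quartic (A B y : ℂ[X]) (x : ℂ) :
    (quartic A B y).eval x = quartic (A.eval x) (B.eval x) (y.eval x) := by
  simp [quartic]

/-! ### Roots near infinity -/

/-- A simple root lifts to a truncated power series root of any order. -/
theorem exists_truncated_root (A B : ℂ[X]) {y₀ : ℂ}
    (h0 : quartic (A.eval 0) (B.eval 0) y₀ = 0)
    (h1 : quarticDeriv (A.eval 0) (B.eval 0) y₀ ≠ 0) (n : ℕ) :
    ∃ P : ℂ[X], P.natDegree ≤ n ∧ P.eval 0 = y₀ ∧ X ^ (n + 1) ∣ quartic A B P := by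
  induction n with
  | zero =>
    refine ⟨C y₀, by simp, by simp, ?_⟩
    rw [zero_add, pow_one, X_dvd_iff, coeff_zero_eq_eval_zero, eval_quartic, eval_C, h0]
  | succ n ih =>
    obtain ⟨P, hd, he, E, hE⟩ := ih
    set c := -E.eval 0 / quarticDeriv (A.eval 0) (B.eval 0) y₀ with hc
    refine ⟨P + C c * X ^ (n + 1),
      (natDegree_add_le _ _).trans (max_le (by omega) (natDegree_C_mul_X_pow_le c (n + 1))),
      by simp [he], ?_⟩
    set Q := E + C c * quarticDeriv A B P + X ^ (n + 1) * C c ^ 2 *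
      (18 * P ^ 2 + 12 * P * (C c * X ^ (n + 1)) + 3 * (C c * X ^ (n + 1)) ^ 2 + 6 * A) with hQ
    have hfac : quartic A B (P + C c * X ^ (n + 1)) = X ^ (n + 1) * Q := by
      rw [quartic_add, hE, hQ]; ring
    rw [hfac, pow_succ _ (n + 1)]
    refine mul_dvd_mul_left _ ?_
    rw [X_dvd_iff, coeff_zero_eq_eval_zero, hQ]
    simp only [eval_add, eval_mul, eval_pow, eval_X, eval_C, zero_pow (Nat.succ_ne_zero n),
      zero_mul, add_zero]
    have : (quarticDeriv A B P).eval 0 = quarticDeriv (A.eval 0) (B.eval 0) y₀ := by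
      simp [quarticDeriv, he]
    rw [this, hc, div_mul_cancel₀ _ h1, add_neg_cancel]

theorem quarticDeriv_ne_zero {a b y : ℂ} (hd : 4 * a ^ 3 + 27 * b ^ 2 ≠ 0)
    (h : quartic a b y = 0) : quarticDeriv a b y ≠ 0 := by
  intro h'
  simp only [quartic, quarticDeriv] at h h'
  have hf : y ^ 3 + a * y + b = 0 := by linear_combination h' / 12
  have hg : (3 * y ^ 2 + a) ^ 2 = 0 := by linear_combination -h + 12 * y * hf
  have hg' : 3 * y ^ 2 + a = 0 := pow_eq_zero_iff (two_ne_zero) |>.mp hg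
  have ha : a = -3 * y ^ 2 := by linear_combination hg'
  have hb : b = 2 * y ^ 3 := by rw [ha] at hf; linear_combination hf
  exact hd (by rw [ha, hb]; ring)

theorem finite_quartic_roots (a b : ℂ) : {y : ℂ | quartic a b y = 0}.Finite := by
  set P : ℂ[X] := C 3 * X ^ 4 + C (6 * a) * X ^ 2 + C (12 * b) * X + C (-a ^ 2) with hP
  have hP0 : P ≠ 0 := by
    intro h
    have := congrArg (fun p : ℂ[X] => p.coeff 4) h
    simp only [hP, coeff_add, coeff_C_mul, coeff_X_pow, coeff_X, coeff_C, coeff_zero] at this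
    norm_num at this
  refine (finite_setOfPred_isRoot hP0).subset fun y hy => ?_
  simp only [Set.mem_ofPred_eq, quartic] at hy
  simp only [Set.mem_ofPred_eq, IsRoot.def, hP, eval_add, eval_mul, eval_C, eval_pow, eval_X]
  linear_combination hy

theorem norm_quartic_root_le {a b y : ℂ} (h : quartic a b y = 0) :
    ‖y‖ ≤ 1 + 6 * ‖a‖ + 12 * ‖b‖ + ‖a‖ ^ 2 := by
  by_contra hlt
  rw [not_le] at hlt
  have h1 : 1 < ‖y‖ := by nlinarith [norm_nonneg a, norm_nonneg b, sq_nonneg ‖a‖]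
  have e : 3 * y ^ 4 = a ^ 2 - 6 * a * y ^ 2 - 12 * b * y := by
    simp only [quartic] at h; linear_combination h
  have hle : 3 * ‖y‖ ^ 4 ≤ ‖a‖ ^ 2 + 6 * ‖a‖ * ‖y‖ ^ 2 + 12 * ‖b‖ * ‖y‖ := by
    calc 3 * ‖y‖ ^ 4 = ‖3 * y ^ 4‖ := by simp
      _ = ‖a ^ 2 - 6 * a * y ^ 2 - 12 * b * y‖ := by rw [e]
      _ ≤ ‖a ^ 2‖ + ‖6 * a * y ^ 2‖ + ‖12 * b * y‖ :=
        (norm_sub_le _ _).trans (add_le_add (norm_sub_le _ _) le_rfl)
      _ = _ := by simp
  nlinarith [mul_nonneg (norm_nonneg a) (norm_nonneg y),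
    mul_nonneg (norm_nonneg b) (sub_nonneg.mpr h1.le),
    pow_le_pow_right₀ h1.le (show 2 ≤ 3 by norm_num),
    pow_le_pow_right₀ h1.le (show 1 ≤ 3 by norm_num),
    mul_lt_mul_of_pos_right hlt (pow_pos (zero_lt_one.trans h1) 3)]

/-- Near `u = 0` every root is close to one of the truncated roots. -/
theorem roots_near (Ah Bh : ℂ[X]) (hd : 4 * (Ah.eval 0) ^ 3 + 27 * (Bh.eval 0) ^ 2 ≠ 0) :
    ∃ (m : ℕ) (π : Fin m → ℂ[X]) (K : ℝ), (∀ i, (π i).natDegree ≤ 11) ∧ 0 ≤ K ∧
      ∀ᶠ u in 𝓝 (0 : ℂ), ∀ y, quartic (Ah.eval u) (Bh.eval u) y = 0 →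
        ∃ i, ‖y - (π i).eval u‖ ≤ K * ‖u‖ ^ 12 := by
  classical
  set a := Ah.eval 0 with ha
  set b := Bh.eval 0 with hb
  set R := (finite_quartic_roots a b).toFinset with hR
  have hRmem : ∀ y, y ∈ R ↔ quartic a b y = 0 := fun y => by simp [hR]
  have hroot : ∀ i : Fin R.card, quartic a b (R.equivFin.symm i : ℂ) = 0 :=
    fun i => (hRmem _).mp (R.equivFin.symm i).2
  have hder : ∀ i : Fin R.card, quarticDeriv a b (R.equivFin.symm i : ℂ) ≠ 0 :=
    fun i => quarticDeriv_ne_zero hd (hroot i)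
  choose π hπd hπ0 E hE using fun i : Fin R.card =>
    exists_truncated_root Ah Bh (hroot i) (hder i) 11
  set Ki : Fin R.card → ℝ := fun i =>
    (‖(E i).eval 0‖ + 1) / (‖quarticDeriv a b (R.equivFin.symm i : ℂ)‖ / 2) with hKi
  have hKi0 : ∀ i, 0 ≤ Ki i := fun i => by positivity
  refine ⟨R.card, π, ∑ i, Ki i, hπd, sum_nonneg fun i _ => hKi0 i, ?_⟩
  set B0 := 1 + 6 * (‖a‖ + 1) + 12 * (‖b‖ + 1) + (‖a‖ + 1) ^ 2 with hB0
  have hbdA : ∀ᶠ u in 𝓝 (0 : ℂ), ‖Ah.eval u‖ ≤ ‖a‖ + 1 :=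
    (((Ah.continuous).norm.tendsto 0).eventually (Iic_mem_nhds (lt_add_one _)))
  have hbdB : ∀ᶠ u in 𝓝 (0 : ℂ), ‖Bh.eval u‖ ≤ ‖b‖ + 1 :=
    (((Bh.continuous).norm.tendsto 0).eventually (Iic_mem_nhds (lt_add_one _)))
  -- Near a root `y` of the quartic at `0` the distance to the truncated root is the error over
  -- the derivative; near other `y` there is no root. The roots are bounded, so compactness
  -- makes this uniform.
  have hloc : ∀ y ∈ Metric.closedBall (0 : ℂ) B0, ∀ᶠ z in 𝓝 (((0 : ℂ), y) : ℂ × ℂ),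
      quartic (Ah.eval z.1) (Bh.eval z.1) z.2 = 0 →
        ∃ i, ‖z.2 - (π i).eval z.1‖ ≤ (∑ i, Ki i) * ‖z.1‖ ^ 12 := by
    intro y _
    by_cases hy : quartic a b y = 0
    · obtain ⟨i, hi⟩ : ∃ i, (R.equivFin.symm i : ℂ) = y :=
        ⟨R.equivFin ⟨y, (hRmem y).mpr hy⟩, by simp⟩
      set D := quarticDeriv a b y with hD
      set G : ℂ × ℂ → ℂ := fun z =>
        3 * (z.2 ^ 3 + z.2 ^ 2 * (π i).eval z.1 + z.2 * (π i).eval z.1 ^ 2
            + (π i).eval z.1 ^ 3)
          + 6 * Ah.eval z.1 * (z.2 + (π i).eval z.1) + 12 * Bh.eval z.1 with hG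
      have hG0 : G (0, y) = D := by
        simp only [hG, hD, quarticDeriv, hπ0, hi, ← ha, ← hb]; ring
      have hGc : Continuous G := by simp only [hG]; fun_prop
      have hDpos : 0 < ‖D‖ := by rw [hD, ← hi]; exact norm_pos_iff.mpr (hder i)
      have e1 : ∀ᶠ z in 𝓝 (((0 : ℂ), y) : ℂ × ℂ), ‖D‖ / 2 ≤ ‖G z‖ :=
        (hGc.norm.tendsto _).eventually (Ici_mem_nhds (by rw [hG0]; linarith))
      have e2 : ∀ᶠ z in 𝓝 (((0 : ℂ), y) : ℂ × ℂ), ‖(E i).eval z.1‖ ≤ ‖(E i).eval 0‖ + 1 :=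
        (((E i).continuous.comp continuous_fst).norm.tendsto ((0 : ℂ), y)).eventually
          (Iic_mem_nhds (lt_add_one _))
      filter_upwards [e1, e2] with z h1 h2 hz
      refine ⟨i, ?_⟩
      have hfac : (z.2 - (π i).eval z.1) * G z = -(z.1 ^ 12 * (E i).eval z.1) := by
        have := congrArg (Polynomial.eval z.1) (hE i)
        rw [eval_quartic, eval_mul, eval_pow, eval_X] at this
        simp only [hG, quartic] at this hz ⊢
        linear_combination hz - this
      have hprod : ‖z.2 - (π i).eval z.1‖ * (‖D‖ / 2) ≤ ‖z.1‖ ^ 12 * (‖(E i).eval 0‖ + 1) := by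
        calc ‖z.2 - (π i).eval z.1‖ * (‖D‖ / 2)
            ≤ ‖z.2 - (π i).eval z.1‖ * ‖G z‖ := by gcongr
          _ = ‖z.1‖ ^ 12 * ‖(E i).eval z.1‖ := by rw [← norm_mul, hfac]; simp
          _ ≤ _ := by gcongr
      calc ‖z.2 - (π i).eval z.1‖
          ≤ ‖z.1‖ ^ 12 * (‖(E i).eval 0‖ + 1) / (‖D‖ / 2) :=
            (le_div_iff₀ (by linarith)).mpr hprod
        _ = Ki i * ‖z.1‖ ^ 12 := by simp only [hKi, hi, ← hD]; ring
        _ ≤ _ := by
          gcongr
          exact single_le_sum (fun j _ => hKi0 j) (mem_univ i)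
    · have hc : Continuous fun z : ℂ × ℂ => quartic (Ah.eval z.1) (Bh.eval z.1) z.2 := by
        simp only [quartic]; fun_prop
      filter_upwards [hc.continuousAt.eventually_ne (show quartic (Ah.eval ((0 : ℂ), y).1)
        (Bh.eval ((0 : ℂ), y).1) ((0 : ℂ), y).2 ≠ 0 from hy)] with z hz h
      exact absurd h hz
  have htube := (isCompact_closedBall (0 : ℂ) B0).eventually_forall_of_forall_eventually
    (P := fun u y => quartic (Ah.eval u) (Bh.eval u) y = 0 →
      ∃ i, ‖y - (π i).eval u‖ ≤ (∑ i, Ki i) * ‖u‖ ^ 12) hloc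
  filter_upwards [hbdA, hbdB, htube] with u hA hB hu y hy
  refine hu y ?_ hy
  rw [mem_closedBall_zero_iff]
  refine (norm_quartic_root_le hy).trans ?_
  rw [hB0]; gcongr

theorem natDegree_linear_comp_le (p : ℂ[X]) (c d : ℂ) :
    (p.comp (C c + C d * X)).natDegree ≤ p.natDegree := by
  refine natDegree_comp_le.trans ?_
  have : (C c + C d * X : ℂ[X]).natDegree ≤ 1 := by compute_degree
  calc p.natDegree * (C c + C d * X : ℂ[X]).natDegree ≤ p.natDegree * 1 :=
        Nat.mul_le_mul_left _ this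
    _ = p.natDegree := Nat.mul_one _

/-! ### Interpolation along progressions -/

theorem alternating_sum_eval_eq_zero {p : ℂ[X]} (hp : p.natDegree ≤ 10) (y : ℂ) :
    ∑ k ∈ range 12, ((-1 : ℤ) ^ (11 - k) * (Nat.choose 11 k)) • p.eval (y + (k : ℂ)) = 0 := by
  have h := fwdDiff_iter_eq_sum_shift (1 : ℂ) (fun x => p.eval x) 11 y
  rw [Polynomial.fwdDiff_iter_eq_zero_of_degree_lt (by omega : p.natDegree < 11)] at h
  simpa [nsmul_eq_mul] using h.symm

/-- Integers near a polynomial of degree `≤ 10` along a progression lie on such a polynomial. -/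
theorem exists_interpolant {L : ℕ} (z : ℕ → ℤ) {Q : ℂ[X]} (hQ : Q.natDegree ≤ 10) {ε : ℝ}
    (hε : ε * 2 ^ 11 < 1) (h : ∀ j < L, ‖(z j : ℂ) - Q.eval (j : ℂ)‖ ≤ ε) :
    ∃ q : ℂ[X], q.natDegree ≤ 10 ∧ ∀ j < L, q.eval (j : ℂ) = z j := by
  -- The eleventh differences are integers of absolute value `< 1`, hence `0`.
  have hzero : ∀ j, j + 11 < L →
      ∑ k ∈ range 12, ((-1 : ℤ) ^ (11 - k) * (Nat.choose 11 k)) * z (j + k) = 0 := by
    intro j hj
    set S := ∑ k ∈ range 12, ((-1 : ℤ) ^ (11 - k) * (Nat.choose 11 k)) * z (j + k) with hS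
    have e : (S : ℂ) = ∑ k ∈ range 12, ((-1 : ℤ) ^ (11 - k) * (Nat.choose 11 k)) •
        ((z (j + k) : ℂ) - Q.eval ((j : ℂ) + (k : ℂ))) := by
      simp only [smul_sub, sum_sub_distrib, alternating_sum_eval_eq_zero hQ, sub_zero]
      rw [hS]
      push_cast [zsmul_eq_mul]
      rfl
    have hlt : ‖(S : ℂ)‖ < 1 := by
      rw [e]
      refine ((norm_sum_le _ _).trans (sum_le_sum (g := fun k => (Nat.choose 11 k : ℝ) * ε)
        fun k hk => ?_)).trans_lt ?_
      · rw [zsmul_eq_mul, norm_mul]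
        have hk' : k < 12 := mem_range.mp hk
        have := h (j + k) (by omega)
        push_cast at this ⊢
        simp only [norm_mul, norm_pow, norm_neg, norm_one, one_pow, one_mul, Complex.norm_natCast]
        gcongr
      · rw [← sum_mul]
        have : (∑ k ∈ range 12, (Nat.choose 11 k : ℝ)) = 2 ^ 11 := by
          exact_mod_cast Nat.sum_range_choose 11
        rw [this]; linarith
    rw [Complex.norm_intCast, ← Int.cast_abs, ← Int.cast_one (R := ℝ), Int.cast_lt,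
      Int.abs_lt_one_iff] at hlt
    exact hlt
  -- So the values follow the interpolation on the first eleven points.
  set q := Lagrange.interpolate (range 11) (fun k : ℕ => (k : ℂ)) (fun k => (z k : ℂ)) with hq
  have hinj : Set.InjOn (fun k : ℕ => (k : ℂ)) (range 11 : Finset ℕ) :=
    fun a _ b _ e => Nat.cast_injective e
  have hdeg : q.natDegree ≤ 10 := by
    rw [natDegree_le_iff_degree_le]
    exact (Lagrange.degree_interpolate_le _ hinj).trans (by simp)
  refine ⟨q, hdeg, fun j => ?_⟩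
  induction j using Nat.strong_induction_on with
  | _ j ih =>
    intro hj
    by_cases hj11 : j < 11
    · exact Lagrange.eval_interpolate_at_node _ hinj (mem_range.mpr hj11)
    · obtain ⟨i, rfl⟩ : ∃ i, j = i + 11 := ⟨j - 11, by omega⟩
      have e1 := alternating_sum_eval_eq_zero hdeg (i : ℂ)
      have e2 : ((∑ k ∈ range 12, ((-1 : ℤ) ^ (11 - k) * (Nat.choose 11 k)) * z (i + k) : ℤ) : ℂ)
          = 0 := by rw [hzero i hj, Int.cast_zero]
      rw [sum_range_succ] at e1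
      push_cast [sum_range_succ _ 11, zsmul_eq_mul] at e1 e2
      have hsame : ∑ k ∈ range 11, (-1 : ℂ) ^ (11 - k) * (Nat.choose 11 k : ℂ)
            * q.eval ((i : ℂ) + (k : ℂ))
          = ∑ k ∈ range 11, (-1 : ℂ) ^ (11 - k) * (Nat.choose 11 k : ℂ) * (z (i + k) : ℂ) :=
        sum_congr rfl fun k hk => by
          rw [← Nat.cast_add, ih (i + k) (by have := mem_range.mp hk; omega)
            (by have := mem_range.mp hk; omega)]
      simp only [Nat.choose_self, Nat.cast_one, one_mul] at e1 e2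
      push_cast
      linear_combination e1 - e2 - hsame

theorem exists_progression_mono (L m : ℕ) :
    ∃ N : ℕ, ∀ (T : ℕ) (c : ℕ → Fin m), ∃ s d : ℕ, 0 < d ∧ d ≤ N ∧
      ∃ i, ∀ j < L, c (T + s + d * j) = i := by
  obtain ⟨ι, _, hι⟩ := Combinatorics.Line.exists_mono_in_high_dimension (Fin L) (Fin m)
  classical
  refine ⟨Fintype.card ι, fun T c => ?_⟩
  obtain ⟨l, i, hl⟩ := hι fun v => c (T + ∑ e, (v e : ℕ))
  refine ⟨∑ e, (l.idxFun e).elim 0 Fin.val, (univ.filter fun e => l.idxFun e = none).card,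
    card_pos.mpr ?_, card_le_univ _, i, fun j hj => ?_⟩
  · obtain ⟨e, he⟩ := l.proper
    exact ⟨e, by simp [he]⟩
  · rw [← hl ⟨j, hj⟩]
    congr 1
    rw [add_assoc]
    congr 1
    rw [card_filter, sum_mul, ← sum_add_distrib]
    refine sum_congr rfl fun e _ => ?_
    cases h : l.idxFun e <;> simp [h]

/-- The polynomial part, of degree at most `10`, of `t ^ 10 * p (1 / t)`. -/
private theorem pow_mul_eval_inv {p : ℂ[X]} (hp : p.natDegree ≤ 11) {t : ℂ} (ht : t ≠ 0) :
    t ^ 10 * p.eval t⁻¹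
      = (∑ j ∈ range 11, C (p.coeff j) * X ^ (10 - j)).eval t + p.coeff 11 * t⁻¹ := by
  rw [eval_eq_sum_range' (show p.natDegree < 12 by omega), sum_range_succ, mul_add,
    eval_finsetSum, mul_sum]
  refine congrArg₂ (· + ·) (sum_congr rfl fun j hj => ?_) ?_
  · simp only [eval_mul, eval_C, eval_pow, eval_X]
    rw [show t ^ 10 = t ^ (10 - j) * t ^ j by
      rw [← pow_add, Nat.sub_add_cancel (by have := mem_range.mp hj; omega)], inv_pow]
    field_simp
  · field_simp

/-! ### Polynomial roots -/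

/-- For large natural `n` the roots at `n` are within `O(1 / n)` of finitely many polynomials
of degree at most `10`. -/
private theorem exists_near_polynomials (A B Ah Bh : ℂ[X])
    (hA : ∀ t : ℂ, t ≠ 0 → A.eval t = t ^ 20 * Ah.eval t⁻¹)
    (hB : ∀ t : ℂ, t ≠ 0 → B.eval t = t ^ 30 * Bh.eval t⁻¹)
    (hd : 4 * (Ah.eval 0) ^ 3 + 27 * (Bh.eval 0) ^ 2 ≠ 0) :
    ∃ (m : ℕ) (P : Fin m → ℂ[X]) (K : ℝ) (n₀ : ℕ), (∀ i, (P i).natDegree ≤ 10) ∧ 0 ≤ K ∧
      ∀ n ≥ n₀, ∀ y, quartic (A.eval (n : ℂ)) (B.eval (n : ℂ)) y = 0 →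
        ∃ i, ‖y - (P i).eval (n : ℂ)‖ ≤ K / n := by
  classical
  obtain ⟨m, π, K, hπd, hK, hev⟩ := roots_near Ah Bh hd
  have htend : Tendsto (fun n : ℕ => ((n : ℂ))⁻¹) atTop (𝓝 0) :=
    tendsto_inv_atTop_nhds_zero_nat
  obtain ⟨n₀, hn₀⟩ := eventually_atTop.mp (htend.eventually hev)
  refine ⟨m, fun i => ∑ j ∈ range 11, C ((π i).coeff j) * X ^ (10 - j),
    K + ∑ i, ‖(π i).coeff 11‖, max n₀ 1, fun i => natDegree_sum_le_of_forall_le _ _ fun j _ =>
      (natDegree_C_mul_X_pow_le _ _).trans (Nat.sub_le 10 j),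
    add_nonneg hK (sum_nonneg fun i _ => norm_nonneg _), fun n hn y hy => ?_⟩
  have hn1 : n ≠ 0 := by have := (le_max_right n₀ 1).trans hn; omega
  have hnC : (n : ℂ) ≠ 0 := Nat.cast_ne_zero.mpr hn1
  obtain ⟨w, rfl⟩ : ∃ w, y = w * (n : ℂ) ^ 10 := ⟨y / (n : ℂ) ^ 10, by field_simp⟩
  obtain ⟨i, hi⟩ := hn₀ n ((le_max_left _ _).trans hn) w (by
    rw [hA _ hnC, hB _ hnC] at hy
    simp only [quartic] at hy ⊢
    apply mul_left_cancel₀ (pow_ne_zero 40 hnC)
    rw [mul_zero]
    linear_combination hy)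
  refine ⟨i, ?_⟩
  have e : w * (n : ℂ) ^ 10 - (∑ j ∈ range 11, C ((π i).coeff j) * X ^ (10 - j)).eval (n : ℂ)
      = (π i).coeff 11 * (n : ℂ)⁻¹ + (n : ℂ) ^ 10 * (w - (π i).eval (n : ℂ)⁻¹) := by
    rw [mul_sub, pow_mul_eval_inv (hπd i) hnC]; ring
  have h11 : ‖(π i).coeff 11‖ ≤ ∑ i, ‖(π i).coeff 11‖ :=
    single_le_sum (f := fun i => ‖(π i).coeff 11‖) (fun j _ => norm_nonneg _) (mem_univ i)
  rw [norm_inv, Complex.norm_natCast] at hi
  rw [e]
  calc ‖(π i).coeff 11 * (n : ℂ)⁻¹ + (n : ℂ) ^ 10 * (w - (π i).eval (n : ℂ)⁻¹)‖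
      ≤ ‖(π i).coeff 11‖ * (n : ℝ)⁻¹ + (n : ℝ) ^ 10 * (K * ((n : ℝ)⁻¹) ^ 12) := by
        refine (norm_add_le _ _).trans ?_
        rw [norm_mul, norm_mul, norm_pow, norm_inv, Complex.norm_natCast]
        gcongr
    _ = (‖(π i).coeff 11‖ + K * (n : ℝ)⁻¹) * (n : ℝ)⁻¹ := by field_simp
    _ ≤ ((∑ i, ‖(π i).coeff 11‖) + K * 1) * (n : ℝ)⁻¹ := by
        gcongr
        exact inv_le_one_of_one_le₀ (by exact_mod_cast Nat.one_le_iff_ne_zero.mpr hn1)
    _ = (K + ∑ i, ‖(π i).coeff 11‖) / n := by rw [div_eq_mul_inv]; ring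

/-- The degree of the quartic at a polynomial of degree at most `10`. -/
private theorem natDegree_quartic_le (A B : ℂ[X]) {q : ℂ[X]} (hqd : q.natDegree ≤ 10) :
    (quartic A B q).natDegree ≤ 40 + 2 * A.natDegree + B.natDegree + 10 := by
  simp only [quartic]
  refine (natDegree_sub_le _ _).trans (max_le ((natDegree_add_le _ _).trans (max_le
    ((natDegree_add_le _ _).trans (max_le ?_ ?_)) ?_)) ?_)
  · refine natDegree_mul_le.trans ?_
    have := natDegree_pow_le (p := q) (n := 4)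
    simp only [natDegree_ofNat]
    omega
  · refine natDegree_mul_le.trans ?_
    have := natDegree_pow_le (p := q) (n := 2)
    have h6 := natDegree_mul_le (p := (6 : ℂ[X])) (q := A)
    simp only [natDegree_ofNat] at h6
    omega
  · refine natDegree_mul_le.trans ?_
    have h12 := natDegree_mul_le (p := (12 : ℂ[X])) (q := B)
    simp only [natDegree_ofNat] at h12
    omega
  · exact natDegree_pow_le.trans (by omega)

/-- The main statement: an integral root at all integers forces a polynomial root. -/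
theorem exists_polynomial_root (A B Ah Bh : ℂ[X])
    (hA : ∀ t : ℂ, t ≠ 0 → A.eval t = t ^ 20 * Ah.eval t⁻¹)
    (hB : ∀ t : ℂ, t ≠ 0 → B.eval t = t ^ 30 * Bh.eval t⁻¹)
    (hd : 4 * (Ah.eval 0) ^ 3 + 27 * (Bh.eval 0) ^ 2 ≠ 0)
    (hroot : ∀ n : ℕ, ∃ z : ℤ, quartic (A.eval (n : ℂ)) (B.eval (n : ℂ)) (z : ℂ) = 0) :
    ∃ q : ℂ[X], q.natDegree ≤ 10 ∧ quartic A B q = 0 := by
  classical
  -- Each root is near one of finitely many polynomials.
  obtain ⟨m, P, K', n₁, hPd, hK'0, hnear⟩ := exists_near_polynomials A B Ah Bh hA hB hd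
  choose z hz using hroot
  obtain ⟨i₀, -⟩ := hnear n₁ le_rfl _ (hz n₁)
  have key' : ∀ n : ℕ, ∃ i, n₁ ≤ n → ‖(z n : ℂ) - (P i).eval (n : ℂ)‖ ≤ K' / n := fun n =>
    if hn : n₁ ≤ n then (hnear n hn _ (hz n)).imp fun _ h _ => h
    else ⟨i₀, fun h => absurd h hn⟩
  choose col hcol using key'
  set deg := 40 + 2 * A.natDegree + B.natDegree + 12 with hdeg
  obtain ⟨N, hN⟩ := exists_progression_mono deg m
  set T : ℕ := max n₁ (⌊K' * 2 ^ 11⌋₊ + 1) with hT
  -- By van der Waerden some progression stays near the same one.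
  obtain ⟨s, d, hdpos, -, i, hi⟩ := hN T col
  have hd0 : (d : ℂ) ≠ 0 := Nat.cast_ne_zero.mpr hdpos.ne'
  set t₀ : ℂ := ((T + s : ℕ) : ℂ) with ht₀
  have hTpos : (0 : ℝ) < T := by
    exact_mod_cast lt_of_lt_of_le (Nat.succ_pos _) (le_max_right _ _)
  -- There the roots are interpolated by a polynomial, a root at more points than the degree.
  obtain ⟨q', hq'd, hq'⟩ := exists_interpolant (L := deg) (fun j => z (T + s + d * j))
    (Q := (P i).comp (C t₀ + C (d : ℂ) * X)) ((natDegree_linear_comp_le _ _ _).trans (hPd i))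
    (ε := K' / T) (by
      rw [div_mul_eq_mul_div, div_lt_one hTpos]
      refine (Nat.lt_floor_add_one (K' * 2 ^ 11)).trans_le ?_
      have : ((⌊K' * 2 ^ 11⌋₊ + 1 : ℕ) : ℝ) ≤ (T : ℝ) :=
        Nat.cast_le.mpr (le_max_right n₁ (⌊K' * 2 ^ 11⌋₊ + 1))
      simpa using this)
    (fun j hj => by
      have hge : n₁ ≤ T + s + d * j := (show n₁ ≤ T from le_max_left _ _).trans (by omega)
      have h := hcol (T + s + d * j) hge
      rw [hi j hj] at h
      simp only [eval_comp, eval_add, eval_C, eval_mul, eval_X, ht₀]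
      refine le_trans ?_ (h.trans (div_le_div_of_nonneg_left hK'0 hTpos
        (show (T : ℝ) ≤ ((T + s + d * j : ℕ) : ℝ) from Nat.cast_le.mpr (by omega))))
      push_cast
      exact le_rfl)
  refine ⟨q'.comp (C (-t₀ / d) + C (1 / (d : ℂ)) * X),
    (natDegree_linear_comp_le _ _ _).trans hq'd, ?_⟩
  set q := q'.comp (C (-t₀ / d) + C (1 / (d : ℂ)) * X) with hq
  have hqd : q.natDegree ≤ 10 := (natDegree_linear_comp_le _ _ _).trans hq'd
  refine eq_zero_of_natDegree_lt_card_of_eval_eq_zero _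
    (f := fun j : Fin deg => t₀ + d * ((j : ℕ) : ℂ)) (fun x y hxy => ?_) (fun j => ?_) ?_
  · simpa [hd0, Fin.ext_iff] using hxy
  · have hqe : q.eval (t₀ + d * ((j : ℕ) : ℂ)) = z (T + s + d * j) := by
      rw [← hq' j j.2, hq, eval_comp]
      congr 1
      simp only [eval_add, eval_C, eval_mul, eval_X]
      field_simp
      ring
    rw [eval_quartic, hqe]
    have := hz (T + s + d * j)
    simp only [ht₀]
    push_cast at this ⊢
    exact this
  · rw [Fintype.card_fin]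
    have := natDegree_quartic_le A B hqd
    omega

end Fermat.Agent.Switch
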