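import Mathlib
import Fermat.Prelude.Def_FLTPrelim_ModularRep
import Fermat.Agent.Mazur.Fifteen.Line
import Fermat.Agent.Mazur.Fifteen.Three
import Fermat.Agent.EC.Torsion.Galois
import Fermat.Agent.Arith.Places
import Fermat.Agent.Switch.IntegralValues

/-!
# A reducible mod 3 representation gives an integral root of the short-model quartic

`exists_int_root_of_reducible`, and `exists_int_root_of_Δ_eq_zero` for nodal models: the abscissa
of a rational line in the 3-torsion, rescaled to the short model, is an integral root. It is used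
in `Switch/Main` against `Switch/NoRoot`.
-/

set_option autoImplicit false

namespace Fermat.Agent.Switch

open WeierstrassCurve WeierstrassCurve.Affine

local notation "Qb" => AlgebraicClosure ℚ

/-- The short model quartic at `36 x + 3 b₂` is a multiple of the `3`-division polynomial at `x`. -/
theorem quartic_short {R : Type*} [CommRing R] (V : WeierstrassCurve R) (x : R) :
    quartic (-27 * V.c₄) (-54 * V.c₆) (36 * x + 3 * V.b₂)
      = 1679616 * (3 * x ^ 4 + V.b₂ * x ^ 3 + 3 * V.b₄ * x ^ 2 + 3 * V.b₆ * x + V.b₈) := by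
  simp only [quartic, WeierstrassCurve.c₄, WeierstrassCurve.c₆]
  linear_combination -419904 * V.b_relation

/-- The abscissa of a point killed by `3` is a root of the `3`-division polynomial. -/
theorem three_torsion_quartic {F : Type*} [Field F] [CharZero F] [DecidableEq F]
    (V : WeierstrassCurve F) {x y : F} (h : V.toAffine.Nonsingular x y)
    (h3 : (3 : ℕ) • (Point.some x y h : V.toAffine.Point) = 0) :
    3 * x ^ 4 + V.b₂ * x ^ 3 + 3 * V.b₄ * x ^ 2 + 3 * V.b₆ * x + V.b₈ = 0 := by
  obtain ⟨hη, hL⟩ := Mazur.Fifteen.three_torsion_coords V h h3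
  have hl : Mazur.Fifteen.tangentSlope V x y * (2 * y + V.a₁ * x + V.a₃)
      = 3 * x ^ 2 + 2 * V.a₂ * x + V.a₄ - V.a₁ * y := by
    rw [Mazur.Fifteen.tangentSlope, div_mul_cancel₀ _ hη]
  have he := (Affine.equation_iff ..).mp h.1
  set L := Mazur.Fifteen.tangentSlope V x y
  set η := 2 * y + V.a₁ * x + V.a₃ with hη'
  have hη2 : η ^ 2 = 4 * x ^ 3 + V.b₂ * x ^ 2 + 2 * V.b₄ * x + V.b₆ := by
    simp only [hη', WeierstrassCurve.b₂, WeierstrassCurve.b₄, WeierstrassCurve.b₆]
    linear_combination 4 * he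
  -- twice the numerator of the slope of the completed square model
  have hnum : (2 * L + V.a₁) * η = 6 * x ^ 2 + V.b₂ * x + V.b₄ := by
    simp only [hη', WeierstrassCurve.b₂, WeierstrassCurve.b₄] at hl ⊢
    linear_combination 2 * hl
  have hsq : (2 * L + V.a₁) ^ 2 = V.b₂ + 12 * x := by
    simp only [WeierstrassCurve.b₂]
    linear_combination 4 * hL
  have key : (6 * x ^ 2 + V.b₂ * x + V.b₄) ^ 2
      = (V.b₂ + 12 * x) * (4 * x ^ 3 + V.b₂ * x ^ 2 + 2 * V.b₄ * x + V.b₆) := by
    rw [← hnum, ← hsq, ← hη2]; ring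
  apply mul_left_cancel₀ (show (-4 : F) ≠ 0 by norm_num)
  rw [mul_zero]
  linear_combination key - V.b_relation

/-- A rational root of the third division polynomial gives an integral root of the monic quartic
attached to it. -/
theorem exists_int_quartic_root (V : WeierstrassCurve ℤ) {x : ℚ}
    (h : 3 * x ^ 4 + (V.b₂ : ℚ) * x ^ 3 + 3 * (V.b₄ : ℚ) * x ^ 2 + 3 * (V.b₆ : ℚ) * x
      + (V.b₈ : ℚ) = 0) :
    ∃ z : ℤ, quartic (-27 * V.c₄) (-54 * V.c₆) z = 0 := by
  have hint : _root_.IsIntegral ℤ (3 * x) := by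
    refine ⟨Polynomial.X ^ 4 + (Polynomial.C V.b₂ * Polynomial.X ^ 3
      + Polynomial.C (9 * V.b₄) * Polynomial.X ^ 2
      + Polynomial.C (27 * V.b₆) * Polynomial.X + Polynomial.C (27 * V.b₈)), ?_, ?_⟩
    · exact Polynomial.monic_X_pow_add (Polynomial.degree_cubic_le.trans_lt (by decide))
    · simp only [Polynomial.eval₂_add, Polynomial.eval₂_mul, Polynomial.eval₂_pow,
        Polynomial.eval₂_X, Polynomial.eval₂_C]
      simp only [eq_intCast]
      push_cast
      linear_combination 27 * h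
  obtain ⟨w, hw⟩ := IsIntegrallyClosed.isIntegral_iff.mp hint
  refine ⟨12 * w + 3 * V.b₂, ?_⟩
  apply Int.cast_injective (α := ℚ)
  have hw' : (w : ℚ) = 3 * x := by rw [← hw, eq_intCast (algebraMap ℤ ℚ) w]
  have key := quartic_short (V.map (Int.castRingHom ℚ)) x
  simp only [map_c₄, map_c₆, map_b₂, map_b₄, map_b₆, map_b₈, eq_intCast] at key
  rw [h, mul_zero] at key
  simp only [quartic] at key ⊢
  push_cast
  rw [hw']
  linear_combination key

theorem exists_int_root_of_reducible (V : WeierstrassCurve ℤ) (hΔ : V.Δ ≠ 0)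
    (h : ¬ V.ModRepIsIrreducible 3) : ∃ z : ℤ, quartic (-27 * V.c₄) (-54 * V.c₆) z = 0 := by
  set E := V.map (Int.castRingHom ℚ) with hE
  have : E.IsElliptic := ⟨isUnit_iff_ne_zero.mpr (by simpa [hE] using hΔ)⟩
  obtain ⟨P, hP, h3, hstab⟩ := Mazur.Fifteen.exists_stable_point (K := Qb) E.toAffine 3
    Nat.prime_three (EC.Torsion.natCard_torsionBy_algebraicClosureRat E (by norm_num)) h
  obtain _ | ⟨x, y, hns⟩ := P
  · exact absurd rfl hP
  have hfix : ∀ σ : Qb ≃ₐ[ℚ] Qb, σ x = x := by
    intro σ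
    obtain ⟨k, hk, hσ⟩ := hstab σ
    obtain ⟨h', e⟩ := Mazur.Fifteen.smul_some E σ hns
    rw [e] at hσ
    interval_cases k
    · rw [zero_nsmul] at hσ
      exact absurd hσ (Point.some_ne_zero _)
    · rw [one_nsmul] at hσ
      exact (Point.some.inj hσ).1
    · have h2 : 2 • (Point.some x y hns : (E⁄Qb).toAffine.Point) = -Point.some x y hns := by
        rw [eq_neg_iff_add_eq_zero, ← succ_nsmul]; exact h3
      rw [h2, Point.neg_some] at hσ
      exact (Point.some.inj hσ).1
  have : IsGalois ℚ Qb := Arith.qBar_isGalois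
  obtain ⟨q, rfl⟩ := IntermediateField.mem_bot.mp ((InfiniteGalois.mem_bot_iff_fixed x).mpr hfix)
  have hψ := three_torsion_quartic (E⁄Qb) hns h3
  refine exists_int_quartic_root V (x := q) ((algebraMap ℚ Qb).injective ?_)
  rw [show E⁄Qb = V.map (Int.castRingHom Qb) by ext <;> simp [hE]] at hψ
  simp only [map_b₂, map_b₄, map_b₆, map_b₈, eq_intCast] at hψ
  simpa using hψ

/-- A nodal semistable model also has such a root. -/
theorem exists_int_root_of_Δ_eq_zero (V : WeierstrassCurve ℤ) (hV : V.IsSemistableModel)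
    (hΔ : V.Δ = 0) : ∃ z : ℤ, quartic (-27 * V.c₄) (-54 * V.c₆) z = 0 := by
  have h4 : V.c₄.natAbs = 1 := by
    by_contra hne
    obtain ⟨p, hp, hdvd⟩ := Nat.exists_prime_and_dvd hne
    exact hV p hp (hΔ ▸ dvd_zero _) (Int.natCast_dvd.mpr hdvd)
  have hrel := V.c_relation
  rw [hΔ, mul_zero] at hrel
  have hc4 : V.c₄ = 1 := by
    rcases Int.natAbs_eq_iff.mp h4 with h | h
    · exact_mod_cast h
    · exfalso
      push_cast at h
      rw [h] at hrel
      nlinarith [sq_nonneg V.c₆]
  rw [hc4] at hrel ⊢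
  refine ⟨-3 * V.c₆, ?_⟩
  have h6 : V.c₆ ^ 2 = 1 := by linarith
  simp only [quartic]
  linear_combination (243 * V.c₆ ^ 2 + 729) * h6

end Fermat.Agent.Switch
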