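import Mathlib.Tactic
import Fermat.Prelude.Def_FLTPrelim_ModularRep
import Fermat.Agent.Arith.Frobenius
import Fermat.Agent.EC.FrobTrace.Main
import Fermat.Agent.Switch.Iso
import Fermat.Agent.Switch.Semistable
import Fermat.Agent.Switch.NoRoot
import Fermat.Agent.Switch.Three

/-!
# The 3-5 switch

`three_five_switch`: every semistable integral model has a semistable partner with irreducible
mod `3` representation and congruent traces modulo `5`. It proves S52; `RT/Frey/SwitchEven`
refines it at `2` and at `5`.

1. The curves with the same `5`-torsion form a family (`exists_familyData`), whose members are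
   semistable (`FamilyData.isSemistableModel`).
2. A member irreducible at `3` exists as the quartic of the points of order `3` has no root along
   the line of the family (`exists_quartic_ne_zero`).
3. The members have the traces of the given curve modulo `5` as their `5`-torsion is that of the
   given curve (`FamilyData.five_dvd_apOfModel_sub`).

## References

* A. Wiles, *Modular elliptic curves and Fermat's Last Theorem*, Ann. of Math. (1995).
* K. Rubin, A. Silverberg, *Families of elliptic curves with constant mod p representations*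
  (1995).

The family is written with the icosahedral forms. Hilbert irreducibility is replaced by an explicit
argument on integral roots of a quartic (`Switch/IntegralValues`, `Switch/NoRoot`).
-/

set_option autoImplicit false

namespace Fermat.Agent.Switch

open WeierstrassCurve Polynomial

local notation "Qb" => AlgebraicClosure ℚ

/-! ## A member with irreducible mod `3` representation -/

/-- Along a nondegenerate line of the icosahedral family the quartic is without integral root at
some integer point: otherwise it would have a root in polynomials of degree at most `10`. -/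
theorem exists_quartic_ne_zero {r s u v : ℂ} (hdet : r * v - s * u ≠ 0) (h0 : fC4 r s ≠ 0)
    (hdir : fD u v ≠ 0) :
    ∃ n : ℕ, ∀ z : ℤ,
      quartic (-27 * fC4 (r + n * u) (s + n * v)) (-54 * fC6 (r + n * u) (s + n * v)) (z : ℂ)
        ≠ 0 := by
  by_contra hall
  push Not at hall
  have hAh : ∀ t : ℂ, t ≠ 0 → fC4 (r + t * u) (s + t * v)
      = t ^ 20 * fC4 (u + t⁻¹ * r) (v + t⁻¹ * s) := fun t ht => by
    rw [← fC4_smul]; congr 1 <;> field_simp <;> ring
  have hBh : ∀ t : ℂ, t ≠ 0 → fC6 (r + t * u) (s + t * v)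
      = t ^ 30 * fC6 (u + t⁻¹ * r) (v + t⁻¹ * s) := fun t ht => by
    rw [← fC6_smul]; congr 1 <;> field_simp <;> ring
  obtain ⟨q, hq, hroot⟩ := exists_polynomial_root
    (C (-27) * fC4 (C r + X * C u) (C s + X * C v))
    (C (-54) * fC6 (C r + X * C u) (C s + X * C v))
    (C (-27) * fC4 (C u + X * C r) (C v + X * C s))
    (C (-54) * fC6 (C u + X * C r) (C v + X * C s))
    (fun t ht => by
      simp only [eval_mul, eval_C, eval_fC4, eval_add, eval_X, hAh t ht]; ring)
    (fun t ht => by
      simp only [eval_mul, eval_C, eval_fC6, eval_add, eval_X, hBh t ht]; ring)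
    (by
      simp only [eval_mul, eval_C, eval_fC4, eval_fC6, eval_add, eval_X, zero_mul, add_zero]
      have e : (4 : ℂ) * (-27 * fC4 u v) ^ 3 + 27 * (-54 * fC6 u v) ^ 2
          = -78732 * (1728 * fD u v ^ 5) := by
        rw [← fC4_cube_sub_fC6_sq]; ring
      rw [e]
      exact mul_ne_zero (by norm_num) (mul_ne_zero (by norm_num) (pow_ne_zero _ hdir)))
    (fun n => by simpa only [eval_mul, eval_C, eval_fC4, eval_fC6, eval_add, eval_X] using hall n)
  exact no_polynomial_root r s u v hdet h0 hdir q hq hroot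

variable {W : WeierstrassCurve ℤ} (F : FamilyData W)

/-- Some member of the family has nonzero discriminant and irreducible mod `3` representation. -/
theorem FamilyData.exists_irreducible (hW : W.IsSemistableModel) (h4 : W.c₄ ≠ 0) :
    ∃ n : ℤ, (F.curve n).Δ ≠ 0 ∧ (F.curve n).ModRepIsIrreducible 3 := by
  by_contra hall
  simp only [not_exists, not_and] at hall
  -- otherwise the quartic of every member has an integral root
  have hz : ∀ n : ℤ, ∃ z : ℤ, quartic (-27 * (F.curve n).c₄) (-54 * (F.curve n).c₆) z = 0 := by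
    intro n
    by_cases hΔ : (F.curve n).Δ = 0
    · exact exists_int_root_of_Δ_eq_zero _ (F.isSemistableModel hW n) hΔ
    · exact exists_int_root_of_reducible _ hΔ (hall n hΔ)
  -- the members lie over the integer points of a nondegenerate line over `ℂ`
  obtain ⟨φ⟩ : Nonempty (Qb →ₐ[ℚ] ℂ) := ⟨IsAlgClosed.lift⟩
  have hmapD : ∀ a b : Qb, φ (fD a b) = fD (φ a) (φ b) := fun a b => map_fD (φ : Qb →+* ℂ) a b
  have hmap4 : ∀ a b : Qb, φ (fC4 a b) = fC4 (φ a) (φ b) := fun a b => map_fC4 (φ : Qb →+* ℂ) a b
  have hmap6 : ∀ a b : Qb, φ (fC6 a b) = fC6 (φ a) (φ b) := fun a b => map_fC6 (φ : Qb →+* ℂ) a b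
  have hM : (F.M : ℂ) ≠ 0 := Int.cast_ne_zero.mpr F.hM
  obtain ⟨n, hn⟩ := exists_quartic_ne_zero (r := φ F.r₀) (s := φ F.s₀) (u := F.M * φ F.u)
    (v := F.M * φ F.v)
    (by
      have e : φ F.r₀ * ((F.M : ℂ) * φ F.v) - φ F.s₀ * ((F.M : ℂ) * φ F.u)
          = (F.M : ℂ) * φ (12 * fD F.r₀ F.s₀) := by
        rw [← F.det_eq, map_sub, map_mul, map_mul]; ring
      rw [e]
      exact mul_ne_zero hM ((map_ne_zero φ).mpr (mul_ne_zero (by norm_num) F.fD_base)))
    (by
      rw [← hmap4, F.c4_base, map_intCast]
      exact Int.cast_ne_zero.mpr h4)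
    (by
      rw [fD_smul, ← hmapD]
      exact mul_ne_zero (pow_ne_zero _ hM) ((map_ne_zero φ).mpr F.fD_dir))
  obtain ⟨z, hzn⟩ := hz n
  refine hn z ?_
  have e4 := congrArg φ (F.c4_fib n)
  have e6 := congrArg φ (F.c6_fib n)
  rw [hmap4, map_intCast] at e4
  rw [hmap6, map_intCast] at e6
  simp only [map_add, map_mul, map_intCast, map_natCast, Int.cast_mul, Int.cast_natCast] at e4 e6
  have hcast := congrArg (Int.cast : ℤ → ℂ) hzn
  simp only [quartic, FamilyData.curve] at hcast
  push_cast at hcast
  rw [e4, e6] at hcast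
  simp only [quartic]
  linear_combination (norm := ring_nf) hcast

/-! ## The congruence of the traces modulo `5` -/

/-- Base change of an integral model to `ℚ` and then to its algebraic closure. -/
private theorem baseChange_map_int (V : WeierstrassCurve ℤ) :
    (V.map (Int.castRingHom ℚ))⁄Qb = V.map (Int.castRingHom Qb) := by
  ext <;> simp

/-- The member with parameter `n` lies over its point of the line of the family. -/
theorem fib_curve (n : ℤ) (hn : (F.curve n).Δ ≠ 0) :
    Fib (((F.curve n).map (Int.castRingHom ℚ))⁄Qb)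
      (F.r₀ + F.par n * F.u) (F.s₀ + F.par n * F.v) := by
  have e4 := F.c4_fib n
  have e6 := F.c6_fib n
  have h5 := F.Δ_curve n
  refine ⟨?_, ?_, fun h => hn ?_⟩
  · rw [baseChange_map_int, map_c₄, eq_intCast]
    exact e4
  · rw [baseChange_map_int, map_c₆, eq_intCast]
    exact e6
  · rw [h, zero_pow (by norm_num)] at h5
    exact_mod_cast h5

/-- The given curve lies over the base point of the line of the family. -/
theorem fib_base :
    Fib ((W.map (Int.castRingHom ℚ))⁄Qb)
      (F.r₀ + ((0 : ℚ) : Qb) * F.u) (F.s₀ + ((0 : ℚ) : Qb) * F.v) := by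
  simp only [Rat.cast_zero, zero_mul, add_zero]
  refine ⟨?_, ?_, F.fD_base⟩
  · rw [baseChange_map_int, map_c₄, eq_intCast]
    exact F.c4_base.symm
  · rw [baseChange_map_int, map_c₆, eq_intCast]
    exact F.c6_base.symm

/-- The members of the family have the same traces modulo `5` as the given curve. -/
theorem FamilyData.five_dvd_apOfModel_sub {n : ℤ}
    (hn : (F.curve n).Δ ≠ 0) {ℓ : ℕ} (hℓ : ℓ.Prime) (hg : W.IsGoodPrimeFor ℓ)
    (hg' : (F.curve n).IsGoodPrimeFor ℓ) (h5 : ℓ ≠ 5) :
    (5 : ℤ) ∣ ((F.curve n).apOfModel ℓ - W.apOfModel ℓ) := by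
  have : Fact (Nat.Prime 5) := ⟨by norm_num⟩
  obtain ⟨A, hA⟩ := Arith.exists_liesOverPrime hℓ
  obtain ⟨σ, hσ⟩ := Arith.exists_isFrobeniusAt hA hℓ
  have e := EC.FrobTrace.galoisTrace_frobenius (p := 5) W hℓ hg h5 hA hσ
  have e' := EC.FrobTrace.galoisTrace_frobenius (p := 5) (F.curve n) hℓ hg' h5 hA hσ
  have hfib := fib_curve F n hn
  rw [show F.par n = (((F.M * n : ℤ) : ℚ) : Qb) by simp [FamilyData.par]] at hfib
  have key := F.galoisTrace_eq (W.map (Int.castRingHom ℚ))
    ((F.curve n).map (Int.castRingHom ℚ)) 0 ((F.M * n : ℤ) : ℚ)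
    (fun V hV => by
      rcases hV with rfl | hV
      · exact ⟨by simp, by simp, by simp⟩
      · rw [Set.mem_singleton_iff] at hV
        subst hV
        exact ⟨by simp [FamilyData.curve], by simp [FamilyData.curve], by simp [FamilyData.curve]⟩)
    (fib_base F) hfib σ
  rw [show (W.map (Int.castRingHom ℚ)).toAffine = W.map (Int.castRingHom ℚ) from rfl, e] at key
  rw [show ((F.curve n).map (Int.castRingHom ℚ)).toAffine
    = (F.curve n).map (Int.castRingHom ℚ) from rfl, e'] at key
  exact (ZMod.intCast_zmod_eq_zero_iff_dvd _ 5).mp (by push_cast; rw [key, sub_self])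

/-! ## The switch -/

/-- **The 3-5 switch**: a semistable curve has a semistable partner with irreducible mod `3`
representation and congruent traces modulo `5`. -/
theorem three_five_switch (W : WeierstrassCurve ℤ) (hΔ : W.Δ ≠ 0) (hW : W.IsSemistableModel) :
    ∃ W' : WeierstrassCurve ℤ, W'.Δ ≠ 0 ∧ W'.IsSemistableModel ∧ W'.ModRepIsIrreducible 3 ∧
      ∀ ℓ : ℕ, ℓ.Prime → W.IsGoodPrimeFor ℓ → W'.IsGoodPrimeFor ℓ → ℓ ≠ 5 →
        (5 : ℤ) ∣ (W'.apOfModel ℓ - W.apOfModel ℓ) := by
  obtain ⟨F⟩ := exists_familyData hΔ hW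
  obtain ⟨n, hn, hirr⟩ := F.exists_irreducible hW (c₄_ne_zero_of_semistable hW)
  exact ⟨F.curve n, hn, F.isSemistableModel hW n, hirr, fun ℓ => F.five_dvd_apOfModel_sub hn⟩

end Fermat.Agent.Switch
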